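import Fermat.Agent.Classic.Level.TwistAbs
import Fermat.Agent.HopfFrame.FlatJZero
import Fermat.Agent.FlatGS.Closure
import Fermat.Agent.S44w.Final
import Fermat.Agent.S44w.Main

/-!
# `W[p]` is finite flat at `p` if it is modular of a level prime to `p`

`W[p]` embeds in `J₀(M)[p]` (Boston-Lenstra-Ribet), which is finite flat at `p` for `p ∤ M`.
-/

set_option autoImplicit false

noncomputable section

open WeierstrassCurve WeierstrassCurve.Affine WeierstrassCurve.Affine.Point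
open ModularCurve AlgebraicCurve CuspForm
open Fermat.Agent.FlatGS Fermat.Agent.S44w Fermat.Agent.ECFrob
open Fermat.Agent.GalRep hiding GQ
open scoped WeierstrassCurve.Affine

namespace Fermat.Agent.Cor.AtP

variable {W : WeierstrassCurve ℤ} {p : ℕ} [hp : Fact p.Prime]

/-- The torsion points of order `p`. -/
abbrev TP (W : WeierstrassCurve ℤ) (p : ℕ) : Type :=
  Submodule.torsionBy ℤ ((W.map (Int.castRingHom ℚ))⁄(AlgebraicClosure ℚ)).Point p

/-- **`W[p]` is finite flat at `p`** if it is irreducible and modular of a level prime to `p`. -/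
theorem isFlatModule_of_level (hΔ : W.Δ ≠ 0) (hp2 : p ≠ 2) (hirr : W.ModRepIsIrreducible p)
    {M : ℕ} (hM : M ≠ 0) (hpM : ¬ p ∣ M) (hres : W.IsResiduallyModularOfLevel p M) :
    IsFlatModule p (fun (σ : GQ) (x : TP W p) => σ • x) := by
  classical
  have : NeZero M := ⟨hM⟩
  let := heckeModuleBar M
  have i2 := Cofaith.smulCommClass_JZero M
  obtain ⟨f, 𝔪, hf, h𝔪, hp𝔪, hcong⟩ := hres
  set S : Finset ℕ := insert p (M.primeFactors ∪ W.Δ.natAbs.primeFactors) with hSdef
  have hpS : p ∈ S := Finset.mem_insert_self _ _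
  have hMS : ∀ q : ℕ, q.Prime → q ∣ M → q ∈ S := fun q hq hd =>
    Finset.mem_insert_of_mem (Finset.mem_union_left _ (Nat.mem_primeFactors.2 ⟨hq, hd, hM⟩))
  have hΔS : ∀ q : ℕ, q.Prime → (q : ℤ) ∣ W.Δ → q ∈ S := fun q hq hd =>
    Finset.mem_insert_of_mem (Finset.mem_union_right _
      (Nat.mem_primeFactors.2 ⟨hq, Int.natCast_dvd.1 hd, Int.natAbs_ne_zero.2 hΔ⟩))
  have hES := esInput M hp.out (↑S : Set ℕ) (fun ℓ hℓ hd => hMS ℓ hℓ hd)
  have hrel := fun g => eigenRep_relation (a := fun ℓ => W.apOfModel ℓ) hES hΔ S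
    (Finset.Subset.refl _) hpS hMS hΔS (fun ℓ _ _ => rfl) g
  have hspan := span_range_rho hΔ hp2 hirr
  have hne := exists_mem_eigenPart_ne_zero (a := fun ℓ => W.apOfModel ℓ) hES
    (fun n => Cofaith.finite_torsion_set M (pow_ne_zero n hp.out.ne_zero)) hf h𝔪 hp𝔪
    (fun ℓ hℓ hℓS => hcong ℓ hℓ (fun h => hℓS (hΔS ℓ hℓ h)) (fun h => hℓS (hMS ℓ hℓ h))
      (fun h => hℓS (h ▸ hpS)))
  have := finite_rat hΔ hp.out.ne_zero
  have : Module.Finite (ZMod p) (TP W p) := Module.Finite.of_finite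
  let b : Module.Basis (Fin 2) (ZMod p) (TP W p) :=
    Module.finBasisOfFinrankEq _ _ (finrank_rat hΔ (p := p))
  have : Nontrivial (eigenPart S p (fun ℓ => W.apOfModel ℓ) (JZero M)) := by
    obtain ⟨x, hx, hx0⟩ := hne
    exact ⟨⟨x, hx⟩, 0, fun h => hx0 (congrArg Subtype.val h)⟩
  obtain ⟨φ, hφ, hφe⟩ := Fermat.Agent.Classic.TwistExcl.exists_embed (rho W p)
    (eigenRep S p (fun ℓ => W.apOfModel ℓ) (JZero M)) (two_ne_zero_zmod hp2) b hspan hrel
  have hflatJ := HopfFrame.isFlatModule_actT hp.out hpM 1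
  have hmem : ∀ x : TP W p, ((φ x : eigenPart S p (fun ℓ => W.apOfModel ℓ) (JZero M)) : JZero M) ∈
      Submodule.torsionBy ℤ (JZero M) ((p : ℤ) ^ 1) := by
    intro x
    rw [Submodule.mem_torsionBy_iff, pow_one, natCast_zsmul]
    exact (φ x).2.1
  let i : TP W p →+ ↥(Submodule.torsionBy ℤ (JZero M) ((p : ℤ) ^ 1)) :=
    { toFun := fun v => ⟨(φ v : eigenPart S p (fun ℓ => W.apOfModel ℓ) (JZero M)), hmem _⟩
      map_zero' := Subtype.ext (by
        change ((φ 0 : eigenPart S p (fun ℓ => W.apOfModel ℓ) (JZero M)) : JZero M) = 0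
        rw [_root_.map_zero]
        rfl)
      map_add' := fun v w => Subtype.ext (by
        change ((φ (v + w) : eigenPart S p (fun ℓ => W.apOfModel ℓ) (JZero M)) : JZero M) =
          ((φ v : eigenPart S p (fun ℓ => W.apOfModel ℓ) (JZero M)) : JZero M) +
          ((φ w : eigenPart S p (fun ℓ => W.apOfModel ℓ) (JZero M)) : JZero M)
        rw [map_add]
        rfl) }
  refine IsFlatModule.of_injective hflatJ i ?_ ?_
  · intro v w h
    have h1 : ((φ v : eigenPart S p (fun ℓ => W.apOfModel ℓ) (JZero M)) : JZero M) =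
        ((φ w : eigenPart S p (fun ℓ => W.apOfModel ℓ) (JZero M)) : JZero M) := by
      have h2 := congrArg (fun y : ↥(Submodule.torsionBy ℤ (JZero M) ((p : ℤ) ^ 1)) =>
        (y : JZero M)) h
      exact h2
    exact hφ (Subtype.ext h1)
  · intro σ v
    apply Subtype.ext
    change ((φ (rho W p σ v) : eigenPart S p (fun ℓ => W.apOfModel ℓ) (JZero M)) : JZero M) =
      σ • ((φ v : eigenPart S p (fun ℓ => W.apOfModel ℓ) (JZero M)) : JZero M)
    rw [hφe]
    rfl

end Fermat.Agent.Cor.AtP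

end
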