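import Fermat.Agent.LocE.Kummer
import Fermat.Agent.FlatP.CountKummer
import Fermat.Agent.ECVal.InertiaFix

/-!
# Approximation by inertia-fixed elements in an extension generated by a root of `1 + p α`

Let `A` be a place of `ℚ̄` above the odd prime `p`, `I` its inertia group, and let
`T : ZMod p → ℚ̄` be permuted by `I` through `σ (T k) = T (κ(σ) + ω(σ) k)`, `ω` the cyclotomic
character. Suppose that the class `κ` has a Kummer generator `z ^ p = 1 + p α`, `α` integral and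
fixed by `I`, and that some `σ₀ ∈ I` with `σ₀ ζ = ζ` moves `z`. Then `v(z - 1) = 1 / p`, and if
`v(T 1 - T 0) ≥ r` there is an element `d` fixed by `I` with
`v(T 0 - d) ≥ r - 1 / (p - 1) + 1 / p` (`exists_fixed_near`).
-/

set_option autoImplicit false

namespace Fermat.Agent.Cor.AtP

open FermatAgent.ECVal Fermat.Agent.LocE

local notation "Qbar" => AlgebraicClosure ℚ

lemma one_add_pow_range {K : Type*} [CommRing K] {n m : ℕ} (h : n < m) (x : K) :
    (1 + x) ^ n = ∑ i ∈ Finset.range m, (n.choose i : K) * x ^ i := by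
  rw [add_comm, add_pow]
  simp only [one_pow, mul_one]
  have h1 : ∑ i ∈ Finset.range (n + 1), x ^ i * (n.choose i : K) =
      ∑ i ∈ Finset.range (n + 1), (n.choose i : K) * x ^ i :=
    Finset.sum_congr rfl fun i _ => mul_comm _ _
  rw [h1]
  refine Finset.sum_subset (fun i hi => ?_) (fun i _ hi => ?_)
  · rw [Finset.mem_range] at hi ⊢
    omega
  · rw [Finset.mem_range, not_lt] at hi
    rw [Nat.choose_eq_zero_of_lt (by omega), Nat.cast_zero, zero_mul]

variable {p : ℕ} [hp : Fact p.Prime] {A : ValuationSubring Qbar} {hA : A.LiesOverPrime p}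
  {ζ : Qbar}

/-- The values of `ξ z - 1`, `ξ ^ p = 1`, are `1 / p`. -/
theorem is_sub_one (hp2 : p ≠ 2) (hζ : IsPrimitiveRoot ζ p) {z α : Qbar}
    (hz : z ^ p = 1 + p * α) (hα : (valOf hp.out hA).Ge 0 α) (hαf : IsFixed A α)
    {σ₀ : Qbar ≃ₐ[ℚ] Qbar} (hσ₀ : σ₀ ∈ A.inertiaSubgroupIn ℚ) (h1 : σ₀ ζ = ζ) (h2 : σ₀ z ≠ z) :
    (valOf hp.out hA).Is 0 z ∧
      ∀ ξ : Qbar, ξ ^ p = 1 → (valOf hp.out hA).Is (1 / p) (ξ * z - 1) := by
  set w := valOf hp.out hA with hw
  have hp3 : (3 : ℚ) ≤ p := by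
    have h3 : 3 ≤ p := by
      have := hp.out.two_le
      omega
    exact_mod_cast h3
  have hpw : w.Is 1 (p : Qbar) := valOf_prime hp.out hA
  -- `v(p α) < p / (p - 1)`
  have h3 : ¬ w.Ge (p / ((p : ℚ) - 1)) (p * α) := fun hge =>
    h2 (FlatP.smul_eq_of_pow hp.out hA hζ hz hge hσ₀ h1 (by
      rw [map_mul, map_natCast, hαf σ₀ hσ₀]))
  rw [QVal.not_ge_iff] at h3
  obtain ⟨h4, h5⟩ := h3
  have hα0 : α ≠ 0 := right_ne_zero_of_mul h4
  obtain ⟨n, hn⟩ := exists_is_int hp.out hA hαf hα0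
  have h6 : w.Is (1 + n) (p * α) := hpw.mul hn
  have hn0 : (0 : ℚ) ≤ n := hn.le_of_ge hα
  have h7 : (p : ℚ) / (p - 1) < 2 := by
    rw [div_lt_iff₀ (by linarith)]
    linarith
  have h8 : (n : ℚ) < 1 := by
    have := h6.2
    rw [this] at h5
    linarith
  have hn0' : n = 0 := by
    have h9 : (0 : ℤ) ≤ n := by exact_mod_cast hn0
    have h10 : n < (1 : ℤ) := by exact_mod_cast h8
    omega
  subst hn0'
  have h9 : w.Is 1 (p * α) := h6.congr (by push_cast; ring)
  have hzp : w.Is 0 (z ^ p) := by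
    rw [hz]
    exact QVal.is_one.add_gt (h9.ge.gt (by norm_num))
  have hz0 : z ≠ 0 := by
    rintro rfl
    rw [zero_pow hp.out.ne_zero] at hzp
    exact hzp.1 rfl
  have hp0 : (0 : ℚ) < p := by linarith
  have hzz : w.Is 0 z := by
    refine ⟨hz0, ?_⟩
    have h10 := ((QVal.Is.of_ne (w := w) hz0).pow p).unique hzp
    exact (mul_eq_zero.mp h10).resolve_left hp0.ne'
  refine ⟨hzz, fun ξ hξ => ?_⟩
  have h10 : (ξ * z) ^ p = 1 + p * α := by rw [mul_pow, hξ, one_mul, hz]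
  have h11 : (1 : ℚ) < p / ((p : ℚ) - 1) := by
    rw [lt_div_iff₀ (by linarith)]
    linarith
  obtain ⟨h12, h13⟩ := FlatP.val_sub_one_of_pow hp.out hpw h10 h4 (h9.ge.mono (by norm_num))
    (by rw [h9.2]; exact h11)
  refine ⟨h12, ?_⟩
  rw [h9.2] at h13
  field_simp
  linarith

omit hp in
/-- the value of `x₁ ^ i - x₀ ^ i`. -/
theorem is_pow_sub_pow {w : QVal Qbar} (hwn : ∀ i : ℕ, 0 < i → i < p → w.Is 0 (i : Qbar))
    {x₀ x₁ : Qbar} {a b : ℚ} (hab : a < b) (h0 : w.Is a x₀) (h1 : w.Is b (x₁ - x₀)) {i : ℕ}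
    (hi0 : 0 < i) (hip : i < p) : w.Is (i * a + (b - a)) (x₁ ^ i - x₀ ^ i) := by
  have hx0 : x₀ ≠ 0 := h0.1
  set u := x₁ / x₀ with hu
  have hu1 : w.Is (b - a) (u - 1) := by
    have e : u - 1 = (x₁ - x₀) * x₀⁻¹ := by rw [hu]; field_simp
    rw [e]
    exact (h1.mul h0.inv).congr (by ring)
  have hu1' : w.Gt 0 (u - 1) := hu1.ge.gt (by linarith)
  have hu0 : w.Is 0 u := by
    have e : u = 1 + (u - 1) := by ring
    rw [e]
    exact QVal.is_one.add_gt hu1'
  have hpow : ∀ k : ℕ, w.Gt 0 (u ^ k - 1) := by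
    intro k
    have e : u ^ k - 1 = (∑ j ∈ Finset.range k, u ^ j) * (u - 1) := (geom_sum_mul u k).symm
    rw [e]
    have h2 : w.Ge 0 (∑ j ∈ Finset.range k, u ^ j) :=
      LocE.ge_sum _ _ fun j _ => (hu0.pow j).ge.mono (by simp)
    have h3 := hu1'.mul_ge h2
    rw [mul_comm] at h3
    exact h3.mono (by norm_num)
  have hsum : w.Is 0 (∑ j ∈ Finset.range i, u ^ j) := by
    have e : ∑ j ∈ Finset.range i, u ^ j = (i : Qbar) + ∑ j ∈ Finset.range i, (u ^ j - 1) := by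
      rw [Finset.sum_sub_distrib, Finset.sum_const, Finset.card_range, nsmul_eq_mul, mul_one]
      ring
    rw [e]
    exact (hwn i hi0 hip).add_gt (LocE.gt_sum _ _ fun j _ => hpow j)
  have e : x₁ ^ i - x₀ ^ i = x₀ ^ i * ((∑ j ∈ Finset.range i, u ^ j) * (u - 1)) := by
    rw [geom_sum_mul, hu, div_pow]
    field_simp
  rw [e]
  exact ((h0.pow i).mul (hsum.mul hu1)).congr (by ring)

/-- **Approximation by inertia-fixed elements.** -/
theorem exists_fixed_near (hp2 : p ≠ 2) (hζ : IsPrimitiveRoot ζ p) (T : ZMod p → Qbar)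
    (κ ω : (Qbar ≃ₐ[ℚ] Qbar) → ZMod p)
    (hω : ∀ σ ∈ A.inertiaSubgroupIn ℚ, σ ζ = ζ ^ (ω σ).val)
    (hκ : ∀ σ ∈ A.inertiaSubgroupIn ℚ, ∀ k, σ (T k) = T (κ σ + ω σ * k))
    {z α : Qbar} (hz : z ^ p = 1 + p * α) (hα : (valOf hp.out hA).Ge 0 α) (hαf : IsFixed A α)
    (hσz : ∀ σ ∈ A.inertiaSubgroupIn ℚ, σ z = zchar hζ (κ σ) * z)
    {σ₀ : Qbar ≃ₐ[ℚ] Qbar} (hσ₀ : σ₀ ∈ A.inertiaSubgroupIn ℚ) (h1 : σ₀ ζ = ζ) (h2 : σ₀ z ≠ z)
    {r : ℚ} (hv : (valOf hp.out hA).Ge r (T 1 - T 0)) :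
    ∃ d : Qbar, IsFixed A d ∧ (valOf hp.out hA).Ge (r - 1 / (p - 1) + 1 / p) (T 0 - d) := by
  classical
  have hp0 : NeZero p := ⟨hp.out.ne_zero⟩
  have hpK : (p : Qbar) ≠ 0 := by exact_mod_cast hp.out.ne_zero
  have hp3 : (3 : ℚ) ≤ p := by
    have h3 : 3 ≤ p := by
      have := hp.out.two_le
      omega
    exact_mod_cast h3
  obtain ⟨hzz, hx⟩ := is_sub_one (hA := hA) hp2 hζ hz hα hαf hσ₀ h1 h2
  set w := valOf hp.out hA with hw
  have hz0 : z ≠ 0 := hzz.1
  -- the coefficients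
  set c : ZMod p → Qbar := fun j => resolvent hζ T j / (p * z ^ j.val) with hc
  have hcfix : ∀ j, IsFixed A (c j) := by
    intro j σ hσ
    have h3 := map_resolvent hζ (hω σ hσ) (hκ σ hσ) j
    have e1 : σ (p * z ^ j.val) = p * (zchar hζ (j * κ σ) * z ^ j.val) := by
      rw [map_mul, map_natCast, map_pow, hσz σ hσ, mul_pow, zchar_pow, ZMod.natCast_zmod_val]
    have h4 : zchar hζ (j * κ σ) ≠ 0 := by
      rw [zchar_apply]
      exact pow_ne_zero _ (hζ.ne_zero hp.out.ne_zero)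
    simp only [hc]
    rw [map_div₀, h3, e1]
    field_simp
  have hT : ∀ k, T k = ∑ j : ZMod p, c j * (zchar hζ k * z) ^ j.val := by
    intro k
    have h3 := inversion hζ T k
    have h4 : ∀ j : ZMod p, c j * (zchar hζ k * z) ^ j.val =
        zchar hζ (j * k) * resolvent hζ T j / p := by
      intro j
      simp only [hc]
      rw [mul_pow, zchar_pow, ZMod.natCast_zmod_val]
      field_simp
    simp only [h4]
    rw [← Finset.sum_div, h3]
    field_simp
  set d : ℕ → Qbar := fun i => ∑ j : ZMod p, c j * (j.val.choose i : Qbar) with hd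
  have hdfix : ∀ i, IsFixed A (d i) := by
    intro i σ hσ
    simp only [hd]
    rw [map_sum]
    refine Finset.sum_congr rfl fun j _ => ?_
    rw [map_mul, map_natCast, hcfix j σ hσ]
  have hTd : ∀ k, T k = ∑ i ∈ Finset.range p, d i * (zchar hζ k * z - 1) ^ i := by
    intro k
    rw [hT k]
    have h3 : ∀ j : ZMod p, c j * (zchar hζ k * z) ^ j.val =
        ∑ i ∈ Finset.range p, c j * (j.val.choose i : Qbar) * (zchar hζ k * z - 1) ^ i := by
      intro j
      have e : zchar hζ k * z = 1 + (zchar hζ k * z - 1) := by ring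
      conv_lhs => rw [e]
      rw [one_add_pow_range (ZMod.val_lt j), Finset.mul_sum]
      exact Finset.sum_congr rfl fun i _ => by ring
    simp only [h3]
    rw [Finset.sum_comm]
    refine Finset.sum_congr rfl fun i _ => ?_
    simp only [hd]
    rw [Finset.sum_mul]
  set x₀ := zchar hζ (0 : ZMod p) * z - 1 with hx₀
  set x₁ := zchar hζ (1 : ZMod p) * z - 1 with hx₁
  have hroot : ∀ k : ZMod p, zchar hζ k ^ p = 1 := by
    intro k
    rw [zchar_pow, CharP.cast_eq_zero, zero_mul, AddChar.map_zero_eq_one]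
  have h0 : w.Is (1 / p) x₀ := hx _ (hroot 0)
  have h10 : w.Is (1 / (p - 1)) (x₁ - x₀) := by
    have e : x₁ - x₀ = (ζ - 1) * z := by
      rw [hx₁, hx₀, AddChar.map_zero_eq_one, zchar_apply, ZMod.val_one'', pow_one]
      · ring
      · rintro rfl
        exact Nat.not_prime_one hp.out
    rw [e]
    exact ((is_zeta_sub_one hζ).mul hzz).congr (by ring)
  have hab : (1 : ℚ) / p < 1 / (p - 1) := one_div_lt_one_div_of_lt (by linarith) (by linarith)
  have hwn : ∀ i : ℕ, 0 < i → i < p → w.Is 0 (i : Qbar) := fun i hi hip => by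
    exact valOf_natCast_of_not_dvd hp.out hA (Nat.not_dvd_of_pos_of_lt hi hip)
  have hval : ∀ i ∈ Finset.range p, i ≠ 0 →
      w.Is (i * (1 / p) + (1 / (p - 1) - 1 / p)) (x₁ ^ i - x₀ ^ i) := fun i hi hi0 =>
    is_pow_sub_pow hwn hab h0 h10 (Nat.pos_of_ne_zero hi0) (Finset.mem_range.mp hi)
  -- the difference
  have hdiff : T 1 - T 0 = ∑ i ∈ Finset.range p, d i * (x₁ ^ i - x₀ ^ i) := by
    rw [hTd 1, hTd 0, ← Finset.sum_sub_distrib]
    exact Finset.sum_congr rfl fun i _ => by ring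
  rw [hdiff] at hv
  have hint : ∀ i, d i ≠ 0 → ∃ n : ℤ, w.Is n (d i) := fun i hi =>
    exists_is_int hp.out hA (hdfix i) hi
  have hge := ge_of_ge_sum (w := w) (Finset.range p) (fun i => d i * (x₁ ^ i - x₀ ^ i)) (by
    intro i hi j hj hij hti htj heq
    have hi0 : i ≠ 0 := by
      rintro rfl
      simp at hti
    have hj0 : j ≠ 0 := by
      rintro rfl
      simp at htj
    obtain ⟨n, hn⟩ := hint i (left_ne_zero_of_mul hti)
    obtain ⟨m, hm⟩ := hint j (left_ne_zero_of_mul htj)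
    have h3 := (hn.mul (hval i hi hi0)).2
    have h4 := (hm.mul (hval j hj hj0)).2
    rw [h3, h4] at heq
    have h5 : (p : ℚ) * n + i = p * m + j := by
      have h6 : (n : ℚ) + i * (1 / p) = m + j * (1 / p) := by linarith
      field_simp at h6
      linarith
    have h6 : (p : ℤ) * n + i = p * m + j := by exact_mod_cast h5
    have h7 : (i : ℤ) % p = j % p := by
      have h8 : (i : ℤ) = j + p * (m - n) := by linarith
      rw [h8, Int.add_mul_emod_self_left]
    rw [Finset.mem_range] at hi hj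
    apply hij
    have h8 : (i : ℤ) = j := by
      rwa [Int.emod_eq_of_lt (by positivity) (by exact_mod_cast hi),
        Int.emod_eq_of_lt (by positivity) (by exact_mod_cast hj)] at h7
    exact_mod_cast h8) hv
  refine ⟨d 0, hdfix 0, ?_⟩
  have hT0 : T 0 - d 0 = ∑ i ∈ (Finset.range p).erase 0, d i * x₀ ^ i := by
    rw [hTd 0, ← Finset.add_sum_erase _ _ (Finset.mem_range.mpr hp.out.pos), pow_zero, mul_one,
      add_sub_cancel_left]
  rw [hT0]
  refine LocE.ge_sum _ _ fun i hi => ?_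
  rw [Finset.mem_erase] at hi
  by_cases hdi : d i = 0
  · rw [hdi, zero_mul]
    exact QVal.ge_zero _
  have h3 := hge i hi.2
  have h4 := (QVal.Is.of_ne (w := w) hdi).mul (hval i hi.2 hi.1)
  have h5 := h4.le_of_ge h3
  refine ((QVal.Is.of_ne (w := w) hdi).mul (h0.pow i)).ge.mono ?_
  linarith

end Fermat.Agent.Cor.AtP
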