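import Fermat.Agent.EC.MultCount
import Fermat.Agent.EC.MultOrdA
import Fermat.Agent.LocE.Kummer
import Fermat.Agent.Corollaries.Surj.Inertia
import Fermat.Agent.Corollaries.AtP.Flat

/-!
# The line of `W[p]` in the kernel of the reduction at a multiplicative prime `p`

`W` a Weierstrass equation over `ℤ` with multiplicative reduction at the odd prime `p`, `A` a place
of `ℚ̄` above `p`, `I` its inertia group. There are a point `P` of order `p` outside the identity
component and a point `y` of order `p` in the kernel of the reduction such that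
`σ y = ω(σ) y`, `σ P = P + κ(σ) y` for `σ ∈ I` (`ω` the cyclotomic character), and the value of
the abscissa of `y` is `- 2 s` with `s ≥ 1 / (2 (p - 1))` (`exists_line`).
-/

set_option autoImplicit false

noncomputable section

open WeierstrassCurve WeierstrassCurve.Affine WeierstrassCurve.Affine.Point
open FermatAgent.ECVal Fermat.Agent.ECRed Fermat.Agent.ECFrob Fermat.Agent.LocE
open Fermat.Agent.GalRep hiding GQ
open scoped WeierstrassCurve.Affine

namespace Fermat.Agent.Cor.AtP

local notation "Qbar" => AlgebraicClosure ℚ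

variable {W : WeierstrassCurve ℤ} {p : ℕ} [hp : Fact p.Prime] {A : ValuationSubring Qbar}

section

variable [DecidableEq (IsLocalRing.ResidueField A)]

/-- Points of order `p` of the identity component are in the kernel of the reduction. -/
theorem one_lt_of_mem_E0 (hW : IsMultAt W p) (hp2 : p ≠ 2) (hA : A.LiesOverPrime p)
    {Q : (EQ W).Point} (hQ : p • Q = 0) (hQ0 : Q ≠ 0)
    (hQE : Q ∈ E0 (redEk W A) (isPlace_valuationSubring A)) :
    (valOf hp.out hA).val (xc Q) < 0 ∧ xc Q ≠ 0 := by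
  classical
  have hpl := isPlace_valuationSubring A
  have := charP_residueField_of_liesOver hp.out hA
  have hv := lt_one_of_liesOver hA
  -- the reduced curve is nodal
  have hΔk : (Ek W A).Δ = 0 := by
    have h1 := (redEk W A).Δ
    rw [EQ_Δ] at h1
    refine (hpl.lt_one_iff h1).mp ?_
    obtain ⟨c, hc⟩ := hW.dvd
    rw [hc, Int.cast_mul, Int.cast_natCast, map_mul, mul_comm]
    exact mul_lt_one_of_le_of_lt₀ (val_intCast_le _ _) hv
  have hck : (Ek W A).c₄ ≠ 0 := by
    have h1 : RedTo (IsLocalRing.residue A) (EQ W).c₄ (Ek W A).c₄ :=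
      ((redEk W A).b₂.pow 2).sub ((redTo_ofNat _ 24).mul (redEk W A).b₄)
    refine (hpl.eq_one_iff h1).mp ?_
    rw [EQ_c₄]
    exact val_intCast_eq_one _ hp.out hv hW.ndvd
  obtain ⟨R, hR⟩ := hQE
  have h1 := isRed_nsmul (redEk W A) hpl hR p
  rw [hQ] at h1
  have h2 : p • R = 0 := isRed_zero_left_iff.mp h1
  have h3 : R = 0 := nodal_no_torsion hp2 hΔk hck h2
  rw [h3] at hR
  have h4 : 1 < A.valuation (xc Q) := (isRed_zero_right_iff.mp hR).resolve_left hQ0
  have h5 : ¬ (valOf hp.out hA).Ge 0 (xc Q) := by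
    rw [valOf_ge_zero_iff, ← A.valuation_le_one_iff, not_le]
    exact h4
  rw [QVal.not_ge_iff] at h5
  exact ⟨h5.2, h5.1⟩

omit hp in
theorem coe_smul_TP (σ : Qbar ≃ₐ[ℚ] Qbar) (x : TP W p) :
    ((σ • x : TP W p) : (EQ W).Point) = σ • (x : (EQ W).Point) := rfl

omit hp in
lemma p_nsmul_TP (x : TP W p) : p • (x : (EQ W).Point) = 0 :=
  Fermat.Agent.Tate.mem_torsionBy_nat.mp x.2

/-- **The line in the kernel of the reduction.** -/
theorem exists_line (hW : IsMultAt W p) (hp2 : p ≠ 2) (hA : A.LiesOverPrime p) :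
    ∃ (y P : TP W p) (κ : (Qbar ≃ₐ[ℚ] Qbar) → ZMod p) (s : ℚ), y ≠ 0 ∧
      (P : (EQ W).Point) ∉ E0 (redEk W A) (isPlace_valuationSubring A) ∧
      (y : (EQ W).Point) ∈ E0 (redEk W A) (isPlace_valuationSubring A) ∧
      Submodule.span (ZMod p) {y, P} = ⊤ ∧
      (∀ σ ∈ A.inertiaSubgroupIn ℚ, σ • y = cycMod p σ • y) ∧
      (∀ σ ∈ A.inertiaSubgroupIn ℚ, σ • P = P + κ σ • y) ∧
      1 / (2 * (p - 1)) ≤ s ∧ (valOf hp.out hA).Is (-(2 * s)) (xc (y : (EQ W).Point)) := by
  classical
  have hΔ := hW.ne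
  have hfin := finite_rat hΔ hp.out.ne_zero
  have hmf : Module.Finite (ZMod p) (TP W p) := Module.Finite.of_finite
  have hrank : Module.finrank (ZMod p) (TP W p) = 2 := finrank_rat hΔ (p := p)
  set w := valOf hp.out hA with hw
  -- the line
  let L : Submodule (ZMod p) (TP W p) := AddSubgroup.toZModSubmodule p (E0tors W A p)
  have hmemL : ∀ x : TP W p, x ∈ L ↔
      (x : (EQ W).Point) ∈ E0 (redEk W A) (isPlace_valuationSubring A) := fun x => Iff.rfl
  obtain ⟨P₀, hP₀, hP₀E⟩ := exists_torsion_notMem_E0 hW hp2 hA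
  let P : TP W p := ⟨P₀, Fermat.Agent.Tate.mem_torsionBy_nat.mpr hP₀⟩
  have hPL : P ∉ L := hP₀E
  have hcard : p ≤ Nat.card L := by
    have h1 := pow_le_card_E0tors hW hA hp2 1
    rw [pow_one] at h1
    exact h1
  have hLtop : L ≠ ⊤ := fun h => hPL (h ▸ Submodule.mem_top)
  have hLrank : Module.finrank (ZMod p) L = 1 := by
    have h1 : Module.finrank (ZMod p) L < 2 := by
      rw [← hrank]
      exact Submodule.finrank_lt hLtop
    have h2 : Module.finrank (ZMod p) L ≠ 0 := by
      intro h0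
      rw [Submodule.finrank_eq_zero] at h0
      rw [h0] at hcard
      have h3 : Nat.card (⊥ : Submodule (ZMod p) (TP W p)) = 1 := Nat.card_unique
      rw [h3] at hcard
      exact absurd hcard (not_le.mpr hp.out.one_lt)
    omega
  have hLcard : Nat.card L = p := by
    rw [Module.natCard_eq_pow_finrank (K := ZMod p), hLrank, Nat.card_zmod, pow_one]
  -- inertia acts on the line
  have hsub : ∀ σ ∈ A.inertiaSubgroupIn ℚ, ∀ x : TP W p, σ • x - x ∈ L := fun σ hσ x =>
    Cor.inertia_smul_sub_mem hW hp.out hp2 hA hσ (p_nsmul_TP x)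
  have hstab : ∀ σ ∈ A.inertiaSubgroupIn ℚ, ∀ x ∈ L, σ • x ∈ L := fun σ hσ x hx => by
    have := L.add_mem (hsub σ hσ x) hx
    rwa [sub_add_cancel] at this
  have hspanL : ∀ y ∈ L, y ≠ 0 → Submodule.span (ZMod p) {y} = L := by
    intro y hy hy0
    refine Submodule.eq_of_le_of_finrank_le ?_ ?_
    · rw [Submodule.span_singleton_le_iff_mem]
      exact hy
    · rw [hLrank, finrank_span_singleton hy0]
  -- the abscissae
  have hfinL : Fintype L := Fintype.ofFinite L
  let X : L → Qbar := fun x => xc ((x : TP W p) : (EQ W).Point)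
  have hX : ∀ x : L, x ≠ 0 → w.val (X x) < 0 ∧ X x ≠ 0 := by
    intro x hx0
    refine one_lt_of_mem_E0 hW hp2 hA (p_nsmul_TP _) ?_ x.2
    intro h
    exact hx0 (Subtype.ext (Subtype.ext h))
  let S : Finset L := Finset.univ.erase 0
  have hScard : S.card = p - 1 := by
    rw [Finset.card_erase_of_mem (Finset.mem_univ _), Finset.card_univ,
      ← Nat.card_eq_fintype_card, hLcard]
  have hp3 : 3 ≤ p := by
    have := hp.out.two_le
    omega
  have hp3Q : (3 : ℚ) ≤ p := by exact_mod_cast hp3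
  have hprodfix : IsFixed A (∏ x ∈ S, X x) := by
    intro σ hσ
    rw [map_prod]
    refine Finset.prod_bij' (fun x _ => (⟨σ • (x : TP W p), hstab σ hσ x x.2⟩ : L))
      (fun x _ => (⟨σ⁻¹ • (x : TP W p), hstab σ⁻¹ (inv_mem hσ) x x.2⟩ : L)) ?_ ?_ ?_ ?_ ?_
    · intro x hx
      rw [Finset.mem_erase] at hx ⊢
      refine ⟨fun h => hx.1 ?_, Finset.mem_univ _⟩
      have h1 : σ • (x : TP W p) = 0 := congrArg Subtype.val h
      exact Subtype.ext ((smul_eq_zero_iff_eq σ).mp h1)
    · intro x hx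
      rw [Finset.mem_erase] at hx ⊢
      refine ⟨fun h => hx.1 ?_, Finset.mem_univ _⟩
      have h1 : σ⁻¹ • (x : TP W p) = 0 := congrArg Subtype.val h
      exact Subtype.ext ((smul_eq_zero_iff_eq σ⁻¹).mp h1)
    · intro x _
      exact Subtype.ext (inv_smul_smul σ _)
    · intro x _
      exact Subtype.ext (smul_inv_smul σ _)
    · intro x _
      exact (xc_smul σ ((x : TP W p) : (EQ W).Point)).symm
  have hprodis := is_prod (w := w) S X (fun x hx => (hX x (Finset.ne_of_mem_erase hx)).2)
  obtain ⟨n, hn⟩ := exists_is_int hp.out hA hprodfix hprodis.1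
  have hsum : ∑ x ∈ S, w.val (X x) = n := hprodis.unique hn
  have hSne : S.Nonempty := by
    rw [← Finset.card_pos, hScard]
    omega
  have hn0 : (n : ℚ) ≤ -1 := by
    have h1 : (n : ℚ) < 0 := by
      rw [← hsum]
      exact Finset.sum_neg (fun x hx => (hX x (Finset.ne_of_mem_erase hx)).1) hSne
    have h2 : n < 0 := by exact_mod_cast h1
    have h3 : n ≤ -1 := by omega
    exact_mod_cast h3
  obtain ⟨⟨y, hyL⟩, hyS, hyle⟩ : ∃ y ∈ S, w.val (X y) ≤ -(1 / (p - 1)) := by
    by_contra hcon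
    push Not at hcon
    have h1 : ∑ x ∈ S, (-(1 / ((p : ℚ) - 1))) < ∑ x ∈ S, w.val (X x) :=
      Finset.sum_lt_sum_of_nonempty hSne hcon
    rw [Finset.sum_const, hScard, nsmul_eq_mul, hsum] at h1
    have h2 : ((p - 1 : ℕ) : ℚ) = (p : ℚ) - 1 := by
      rw [Nat.cast_sub (by omega), Nat.cast_one]
    have h3 : (p : ℚ) - 1 ≠ 0 := by linarith
    rw [h2] at h1
    have h4 : ((p : ℚ) - 1) * (-(1 / ((p : ℚ) - 1))) = -1 := by field_simp
    rw [h4] at h1
    linarith
  have hy0 : y ≠ 0 := fun h => (Finset.ne_of_mem_erase hyS) (Subtype.ext h)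
  have hspan1 := hspanL y hyL hy0
  have hspan : Submodule.span (ZMod p) {y, P} = ⊤ := by
    refine Submodule.eq_top_of_finrank_eq ?_
    have h4 : L < Submodule.span (ZMod p) {y, P} := by
      refine lt_of_le_of_ne ?_ fun he => hPL ?_
      · rw [← hspan1]
        exact Submodule.span_mono (by simp)
      · rw [he]
        exact Submodule.subset_span (by simp)
    have h5 := Submodule.finrank_lt_finrank_of_lt h4
    rw [hLrank] at h5
    have h6 := Submodule.finrank_le (Submodule.span (ZMod p) {y, P})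
    rw [hrank] at h6 ⊢
    omega
  -- the functions `κ` and `ω`
  have hκ : ∀ σ : Qbar ≃ₐ[ℚ] Qbar, ∃ k : ZMod p, σ ∈ A.inertiaSubgroupIn ℚ →
      σ • P = P + k • y := by
    intro σ
    by_cases hσ : σ ∈ A.inertiaSubgroupIn ℚ
    · have h1 := hsub σ hσ P
      rw [← hspan1, Submodule.mem_span_singleton] at h1
      obtain ⟨k, hk⟩ := h1
      exact ⟨k, fun _ => by rw [hk]; abel⟩
    · exact ⟨0, fun h => absurd h hσ⟩
  choose κ hκ using hκ
  have hω : ∀ σ ∈ A.inertiaSubgroupIn ℚ, σ • y = cycMod p σ • y := by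
    intro σ hσ
    have h1 := hstab σ hσ y hyL
    rw [← hspan1, Submodule.mem_span_singleton] at h1
    obtain ⟨a, ha⟩ := h1
    have hlin : LinearIndependent (ZMod p) ![y, P] := by
      rw [linearIndependent_fin2]
      refine ⟨?_, ?_⟩
      · intro h
        apply hPL
        change P = 0 at h
        rw [h]
        exact L.zero_mem
      · intro c h
        change c • P = y at h
        by_cases hc : c = 0
        · rw [hc, zero_smul] at h
          exact hy0 h.symm
        · apply hPL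
          have : P = c⁻¹ • y := by rw [← h, smul_smul, inv_mul_cancel₀ hc, one_smul]
          rw [this]
          exact L.smul_mem _ hyL
    let b : Module.Basis (Fin 2) (ZMod p) (TP W p) := Module.Basis.mk hlin (by
      rw [top_le_iff, ← hspan]
      congr 1
      ext x
      simp [Matrix.range_cons, or_comm])
    have hb0 : b 0 = y := by simp [b]
    have hb1 : b 1 = P := by simp [b]
    have hdet := det_rho hΔ (p := p) σ
    rw [← LinearMap.det_toMatrix b, Matrix.det_fin_two] at hdet
    have e0 : rho W p σ (b 0) = a • b 0 := by rw [hb0]; exact ha.symm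
    have e1 : rho W p σ (b 1) = b 1 + κ σ • b 0 := by rw [hb1, hb0]; exact hκ σ hσ
    rw [LinearMap.toMatrix_apply, LinearMap.toMatrix_apply, LinearMap.toMatrix_apply,
      LinearMap.toMatrix_apply, e0, e1] at hdet
    simp at hdet
    rw [← hdet, ha]
  refine ⟨y, P, κ, -(w.val (X ⟨y, hyL⟩)) / 2, hy0, hP₀E, hyL, hspan, hω,
    fun σ hσ => hκ σ hσ, ?_, ?_⟩
  · have h1 : (1 : ℚ) / (2 * (p - 1)) = (1 / (p - 1)) / 2 := by
      rw [div_div, mul_comm]
    rw [h1]
    linarith
  · exact (QVal.Is.of_ne (hX ⟨y, hyL⟩ (Finset.ne_of_mem_erase hyS)).2).congr (by ring)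

end

end Fermat.Agent.Cor.AtP

end
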