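import Fermat.Agent.Corollaries.MultUnr
import Fermat.Agent.Corollaries.AtP.Line
import Fermat.Agent.Corollaries.AtP.Kum
import Fermat.Agent.LocE.AddVal
import Fermat.Agent.FlatP.KummerGen

/-!
# Multiplicative reduction at `p` and modularity of a level prime to `p`

`W` a Weierstrass equation over `ℤ`, `p` an odd prime of multiplicative reduction of `W`.

* `dvd_padicValInt_of_isFlat` : if `W[p]` is finite flat at `p` then `p ∣ v_p(Δ)`;
* `dvd_padicValInt_at_p` : if `W[p]` is irreducible and residually modular of a level prime to `p`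
  then `p ∣ v_p(Δ)`.

This is the converse, at `p`, of the lowering of the level from `p M` to `M`; there is no Tate
curve: if `p ∤ v_p(Δ)`, the Kummer generator `z` of the class of `W[p]` over the fixed field `K` of
inertia is a `p`-th root of `1 + p α`, `α ∈ K` integral, and `v(z - 1) = 1 / p`. The abscissa of
the point `P` off the identity component lies in `K(ζ, z)` and the difference of the abscissae of
`P + y` and `P` has value at least `v(x(P) - c) + 1 / (2 (p - 1))` (`c ∈ K` the critical point near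
the node); expanding in powers of `z - 1` this gives `d ∈ K` with `v(x(P) - d) > v(x(P) - c)`, so
that `v(x(P) - c)` is an integer; but it is `j v_p(Δ) / p` with `0 < j < p`.
-/

set_option autoImplicit false

noncomputable section

open WeierstrassCurve WeierstrassCurve.Affine WeierstrassCurve.Affine.Point
open FermatAgent.ECVal Fermat.Agent.ECRed Fermat.Agent.ECFrob Fermat.Agent.LocE
open Fermat.Agent.FlatGS
open Fermat.Agent.GalRep hiding GQ
open scoped WeierstrassCurve.Affine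

namespace Fermat.Agent.Cor.AtP

local notation "Qbar" => AlgebraicClosure ℚ

variable {W : WeierstrassCurve ℤ} {p : ℕ} [hp : Fact p.Prime] {A : ValuationSubring Qbar}

/-- The Kummer generator of the class of `W[p]` on the inertia group. -/
theorem exists_kummer (hA : A.LiesOverPrime p)
    (hflat : IsFlatModule p (fun (σ : GQ) (x : TP W p) => σ • x)) {ζ : Qbar}
    (hζ : IsPrimitiveRoot ζ p) {y P : TP W p} {κ : (Qbar ≃ₐ[ℚ] Qbar) → ZMod p} (hy : y ≠ 0)
    (hω : ∀ σ ∈ A.inertiaSubgroupIn ℚ, σ • y = cycMod p σ • y)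
    (hκ : ∀ σ ∈ A.inertiaSubgroupIn ℚ, σ • P = P + κ σ • y) :
    ∃ z α : Qbar, IsFixed A α ∧ (valOf hp.out hA).Ge 0 α ∧ z ^ p = 1 + p * α ∧
      ∀ σ ∈ A.inertiaSubgroupIn ℚ, σ z = zchar hζ (κ σ) * z := by
  obtain ⟨hfin, B, hB⟩ := hflat.exists_model
  let V : Submodule (ZMod p) (TP W p) := Submodule.span (ZMod p) {y}
  let ev : V ≃ₗ[ZMod p] ZMod p := (LinearEquiv.toSpanNonzeroSingleton (ZMod p) (TP W p) y hy).symm
  have hev : ∀ (k : ZMod p) (h : k • y ∈ V), ev ⟨k • y, h⟩ = k := by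
    intro k h
    rw [LinearEquiv.symm_apply_eq]
    rfl
  let lam : AddChar V.toAddSubgroup Qbar :=
    (zchar hζ).compAddMonoidHom (ev.toLinearMap.toAddMonoidHom : V →+ ZMod p)
  have hlamk : ∀ (k : ZMod p) (h : k • y ∈ V.toAddSubgroup), lam ⟨k • y, h⟩ = zchar hζ k := by
    intro k h
    change zchar hζ (ev ⟨k • y, h⟩) = _
    rw [hev]
  have hpM : ∀ x : TP W p, p • x = 0 := fun x => Subtype.ext (p_nsmul_TP x)
  have hsmul : ∀ σ ∈ A.inertiaSubgroupIn ℚ, ∀ k : ZMod p,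
      σ • (k • y) = (cycMod p σ * k) • y := by
    intro σ hσ k
    have h1 : σ • (k • y) = k • (σ • y) := (rho W p σ).map_smul k y
    rw [h1, hω σ hσ, smul_smul, mul_comm]
  have hV : ∀ σ ∈ A.inertiaSubgroupIn ℚ, ∀ x ∈ V.toAddSubgroup, σ • x ∈ V.toAddSubgroup := by
    intro σ hσ x hx
    obtain ⟨k, rfl⟩ := Submodule.mem_span_singleton.mp hx
    rw [hsmul σ hσ k]
    exact V.smul_mem _ (Submodule.mem_span_singleton_self y)
  have hlam : ∀ σ (hσ : σ ∈ A.inertiaSubgroupIn ℚ) (x : TP W p) (hx : x ∈ V.toAddSubgroup),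
      lam ⟨σ • x, hV σ hσ x hx⟩ = σ (lam ⟨x, hx⟩) := by
    intro σ hσ x hx
    obtain ⟨k, rfl⟩ := Submodule.mem_span_singleton.mp hx
    have h1 : lam ⟨σ • (k • y), hV σ hσ _ hx⟩ =
        lam ⟨(cycMod p σ * k) • y, V.smul_mem _ (Submodule.mem_span_singleton_self y)⟩ := by
      congr 1
      exact Subtype.ext (hsmul σ hσ k)
    rw [h1, hlamk, hlamk, map_zchar hζ (cycMod_spec p σ hζ.pow_eq_one)]
  have hsub : ∀ σ ∈ A.inertiaSubgroupIn ℚ, σ • P - P = κ σ • y := fun σ hσ => by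
    rw [hκ σ hσ, add_sub_cancel_left]
  have hx : ∀ σ ∈ A.inertiaSubgroupIn ℚ, σ • P - P ∈ V.toAddSubgroup := by
    intro σ hσ
    rw [hsub σ hσ]
    exact V.smul_mem _ (Submodule.mem_span_singleton_self y)
  obtain ⟨z, α, h1, h2, h3, h4⟩ := FlatP.kummer_ord hp.out hA hB hpM hV hlam hx
  refine ⟨z, α, h1, h2, h3, fun σ hσ => ?_⟩
  rw [h4 σ hσ]
  have h5 : lam ⟨σ • P - P, hx σ hσ⟩ =
      lam ⟨κ σ • y, V.smul_mem _ (Submodule.mem_span_singleton_self y)⟩ := by
    congr 1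
    exact Subtype.ext (hsub σ hσ)
  rw [h5, hlamk]

/-- An element of inertia fixing `ζ` and moving the Kummer generator. -/
theorem exists_moving (hW : IsMultAt W p) (hp2 : p ≠ 2) (hv : ¬ p ∣ padicValInt p W.Δ)
    (hA : A.LiesOverPrime p) {ζ : Qbar} (hζ : IsPrimitiveRoot ζ p) {y P : TP W p}
    {κ : (Qbar ≃ₐ[ℚ] Qbar) → ZMod p} (hspan : Submodule.span (ZMod p) {y, P} = ⊤)
    (hω : ∀ σ ∈ A.inertiaSubgroupIn ℚ, σ • y = cycMod p σ • y)
    (hκ : ∀ σ ∈ A.inertiaSubgroupIn ℚ, σ • P = P + κ σ • y) :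
    ∃ σ ∈ A.inertiaSubgroupIn ℚ, σ ζ = ζ ∧ κ σ ≠ 0 := by
  obtain ⟨σ, hσ, hord⟩ := Cor.exists_inertia_order hW hp.out hp2 hv hA
  have hσp : rho W p (σ ^ p) = 1 := by
    apply LinearMap.ext
    intro x
    have h1 : MulAction.toPermHom (Qbar ≃ₐ[ℚ] Qbar)
        (Submodule.torsionBy ℤ (EQ W).Point (p : ℤ)) (σ ^ p) = 1 := by
      rw [map_pow]
      exact orderOf_dvd_iff_pow_eq_one.mp (dvd_of_eq hord)
    exact congrArg (fun f : Equiv.Perm (Submodule.torsionBy ℤ (EQ W).Point (p : ℤ)) => f x) h1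
  have hcyc : cycMod p σ = 1 := by
    have h1 := det_rho hW.ne (p := p) (σ ^ p)
    rw [hσp, _root_.map_one, map_pow, ZMod.pow_card] at h1
    exact h1.symm
  refine ⟨σ, hσ, ?_, ?_⟩
  · rw [cycMod_spec p σ hζ.pow_eq_one, hcyc, ZMod.val_one, pow_one]
  · intro h0
    have hy1 : σ • y = y := by rw [hω σ hσ, hcyc, one_smul]
    have hP1 : σ • P = P := by rw [hκ σ hσ, h0, zero_smul, add_zero]
    have hker : Submodule.span (ZMod p) {y, P} ≤ LinearMap.ker (rho W p σ - 1) := by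
      rw [Submodule.span_le]
      rintro x (rfl | rfl)
      · exact (LinearMap.mem_ker).mpr (sub_eq_zero.mpr hy1)
      · exact (LinearMap.mem_ker).mpr (sub_eq_zero.mpr hP1)
    rw [hspan, top_le_iff, LinearMap.ker_eq_top, sub_eq_zero] at hker
    have h2 : MulAction.toPermHom (Qbar ≃ₐ[ℚ] Qbar)
        (Submodule.torsionBy ℤ (EQ W).Point (p : ℤ)) σ = 1 := by
      apply Equiv.ext
      intro x
      exact LinearMap.congr_fun hker x
    rw [h2, orderOf_one] at hord
    exact hp.out.one_lt.ne hord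

/-- **Multiplicative reduction at `p` and `W[p]` finite flat at `p` imply `p ∣ v_p(Δ)`.** -/
theorem dvd_padicValInt_of_isFlat (hW : IsMultAt W p) (hp2 : p ≠ 2)
    (hflat : IsFlatModule p (fun (σ : GQ) (x : TP W p) => σ • x)) :
    p ∣ padicValInt p W.Δ := by
  classical
  by_contra hcon
  obtain ⟨A, hA⟩ := Frob.exists_liesOverPrime p hp.out
  obtain ⟨ζ, hζ⟩ := exists_primitiveRoot p
  obtain ⟨e, D, NR⟩ := hW.exists_nodeRoot hA
  have N := NR.nodeData hW.prime hA hW.ne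
  have h2D := Cor.two_mul_valOf_nodeD hW hA NR
  obtain ⟨c₀, hc₀, hec⟩ := Cor.exists_centre hW hA NR
  obtain ⟨y, P, κ, s, hy0, hPE, hyE, hspan, hω, hκ, hs, hys⟩ := exists_line hW hp2 hA
  obtain ⟨z, α, hαf, hα, hz, hσz⟩ := exists_kummer hA hflat hζ hy0 hω hκ
  obtain ⟨σ₀, hσ₀, hσ₀ζ, hσ₀κ⟩ := exists_moving hW hp2 hcon hA hζ hspan hω hκ
  have hp0 : (0 : ℚ) < p := by exact_mod_cast hp.out.pos
  have hp3 : (3 : ℚ) ≤ p := by
    have h3 : 3 ≤ p := by
      have := hp.out.two_le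
      omega
    exact_mod_cast h3
  set w := valOf hp.out hA with hw
  set h := w.val D with hh
  have hh0 : 0 < h := N.hh
  -- `σ₀ z ≠ z`
  have hz0 : z ≠ 0 := by
    rintro rfl
    rw [zero_pow hp.out.ne_zero] at hz
    have h1 : w.Is 0 (1 + (p : Qbar) * α) := by
      refine QVal.is_one.add_gt ?_
      have := (valOf_prime hp.out hA).ge.mul hα
      exact this.gt (by norm_num)
    rw [← hz] at h1
    exact h1.1 rfl
  have hσ₀z : σ₀ z ≠ z := by
    intro h1
    rw [hσz σ₀ hσ₀] at h1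
    have h2 : zchar hζ (κ σ₀) = 1 := mul_right_cancel₀ hz0 (h1.trans (one_mul z).symm)
    rw [zchar_apply] at h2
    have h3 := hζ.dvd_of_pow_eq_one _ h2
    have h4 := Nat.eq_zero_of_dvd_of_lt h3 (ZMod.val_lt _)
    exact hσ₀κ ((ZMod.val_eq_zero _).1 h4)
  -- the component value of `P`
  have hPE' := hPE
  rw [mem_E0_iff_pcomp hW.prime hA hW.ne NR] at hPE'
  have hP0 : (P : (EQ W).Point) ≠ 0 := by
    intro h0
    rw [h0] at hPE'
    exact hPE' pcomp_zero
  obtain ⟨hPn, eP⟩ := exists_eq_some hP0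
  have hgt : w.Gt 0 (xc (P : (EQ W).Point) - e) := by
    by_contra hcon
    apply hPE'
    rw [eP, pcomp_some]
    exact QVal.comp_of_not_gt hcon
  obtain ⟨j, hj0, hjp, hX⟩ := torsion_val (hxy := hPn) N (hp.out.odd_of_ne_two hp2)
    (by rw [← eP]; exact p_nsmul_TP P) hgt
  have hjQ : (0 : ℚ) < j := by exact_mod_cast hj0
  have hjpQ : (2 : ℚ) * j < p := by exact_mod_cast hjp
  have hc1 : 0 < (2 * j / p : ℚ) * h := mul_pos (div_pos (by linarith) hp0) hh0
  have hc2 : (2 * j / p : ℚ) * h < h := by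
    have : (2 * j / p : ℚ) < 1 := by rw [div_lt_one hp0]; exact hjpQ
    nlinarith
  set c : ℚ := (2 * j / p : ℚ) * h with hc
  -- the value of `x(P + y) - x(P)`
  have hs0 : 0 < s := by
    have h1 : (0 : ℚ) < 1 / (2 * (p - 1)) := by
      apply one_div_pos.mpr
      linarith
    linarith
  have hyP0 : (y : (EQ W).Point) ≠ 0 := fun h0 => hy0 (Subtype.ext h0)
  obtain ⟨hyn, ey⟩ := exists_eq_some hyP0
  have hPy0 : ((P + y : TP W p) : (EQ W).Point) ≠ 0 := by
    intro h0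
    apply hPE
    have h1 : (P : (EQ W).Point) = -(y : (EQ W).Point) := eq_neg_of_add_eq_zero_left h0
    rw [h1]
    exact neg_mem hyE
  obtain ⟨hPyn, ePy⟩ := exists_eq_some hPy0
  have hxe : w.Is (-(2 * s)) (xc (y : (EQ W).Point) - e) := by
    refine hys.sub_gt ?_
    have he : w.Ge 0 e := by
      rw [hw, valOf_ge_zero_iff, ← A.valuation_le_one_iff]
      exact NR.ve
    exact he.gt (by linarith)
  have h2 : w.Is 0 (2 : Qbar) := by
    exact_mod_cast valOf_natCast_of_not_dvd hW.prime hA (not_dvd_two hW.prime hp2)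
  have hdiff : w.Is (c + s) (xc ((P + y : TP W p) : (EQ W).Point) - xc (P : (EQ W).Point)) := by
    refine addX_sub_is N h2 hPn hyn hPyn ?_ hc1 hc2 hs0 hX hxe
    rw [← ey, ← eP, ← ePy]
    rfl
  -- the abscissae of `P + k y`
  let T : ZMod p → Qbar := fun k => xc ((P + k • y : TP W p) : (EQ W).Point)
  have hT : ∀ σ ∈ A.inertiaSubgroupIn ℚ, ∀ k, σ (T k) = T (κ σ + cycMod p σ * k) := by
    intro σ hσ k
    have h3 : σ • (P + k • y) = P + (κ σ + cycMod p σ * k) • y := by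
      have h4 : σ • (k • y) = k • (σ • y) := (rho W p σ).map_smul k y
      rw [smul_add, hκ σ hσ, h4, hω σ hσ, smul_smul, add_smul, mul_comm k, add_assoc]
    change σ (xc ((P + k • y : TP W p) : (EQ W).Point)) =
      xc ((P + (κ σ + cycMod p σ * k) • y : TP W p) : (EQ W).Point)
    rw [← h3]
    exact (xc_smul σ _).symm
  have hT0 : T 0 = xc (P : (EQ W).Point) := by
    change xc ((P + (0 : ZMod p) • y : TP W p) : (EQ W).Point) = _
    rw [zero_smul, add_zero]
  have hT1 : T 1 = xc ((P + y : TP W p) : (EQ W).Point) := by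
    change xc ((P + (1 : ZMod p) • y : TP W p) : (EQ W).Point) = _
    rw [one_smul]
  obtain ⟨d, hdf, hd⟩ := exists_fixed_near (hA := hA) hp2 hζ T κ (fun σ => cycMod p σ)
    (fun σ _ => cycMod_spec p σ hζ.pow_eq_one) hT hz hα hαf hσz hσ₀ hσ₀ζ hσ₀z
    (r := c + s) (by rw [hT0, hT1]; exact hdiff.ge)
  -- `d - c₀` has value `c`
  have hdgt : w.Gt c (T 0 - d) := by
    refine hd.gt ?_
    have h3 : (1 : ℚ) / (p - 1) < 1 / (2 * (p - 1)) + 1 / p := by
      have h4 : (0 : ℚ) < p - 1 := by linarith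
      rw [div_add_div _ _ (by positivity) (by positivity), div_lt_div_iff₀ h4 (by positivity)]
      nlinarith
    linarith
  have hecgt : w.Gt c (e - c₀) := by
    have h3 : e - c₀ = 2 * ((e - c₀) / 2) := by ring
    rw [h3]
    exact ((h2.ge.mul hec).mono (by linarith : h ≤ 0 + h)).gt hc2
  have hdis : w.Is c (d - c₀) := by
    have h3 : d - c₀ = (xc (P : (EQ W).Point) - e) - (T 0 - d) + (e - c₀) := by
      rw [hT0]; ring
    rw [h3]
    exact (hX.sub_gt hdgt).add_gt hecgt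
  have hdfix : IsFixed A (d - c₀) := fun σ hσ => by rw [map_sub, hdf σ hσ, hc₀ σ hσ]
  obtain ⟨n, hn⟩ := exists_is_int hp.out hA hdfix hdis.1
  have h3 := hdis.unique hn
  -- `j * v_p(Δ) = p * n`
  have h4 : (j : ℚ) * (padicValInt p W.Δ : ℚ) = p * n := by
    rw [← h3, ← h2D, hc]
    field_simp
  have h5 : j * (padicValInt p W.Δ : ℤ) = p * n := by exact_mod_cast h4
  have h6 : (p : ℤ) ∣ j * (padicValInt p W.Δ : ℤ) := ⟨n, h5⟩
  rcases (Nat.prime_iff_prime_int.mp hp.out).dvd_or_dvd h6 with h7 | h7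
  · have := Int.le_of_dvd hj0 h7
    omega
  · exact hcon (by exact_mod_cast h7)

/-- **The prime `p`.** If `W[p]` is irreducible and residually modular of a level prime to `p`, and
`W` has multiplicative reduction at `p`, then `p ∣ v_p(Δ)`. -/
theorem dvd_padicValInt_at_p (hp2 : p ≠ 2) (hirr : W.ModRepIsIrreducible p) {M : ℕ} (hM : M ≠ 0)
    (hpM : ¬ p ∣ M) (hres : W.IsResiduallyModularOfLevel p M) (hW : IsMultAt W p) :
    p ∣ padicValInt p W.Δ :=
  dvd_padicValInt_of_isFlat hW hp2 (isFlatModule_of_level hW.ne hp2 hirr hM hpM hres)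

end Fermat.Agent.Cor.AtP

end
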