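import Fermat.Agent.Corollaries.MinLevel
import Fermat.Agent.Corollaries.AtP.Main

/-!
# The levels of the mod `p` representation of a semistable elliptic curve

`W` semistable, `p` an odd prime, `W[p]` irreducible. Without any condition at `p`: `W` is
residually modular at `p` of level `M` if and only if `serreLevel W p`, the product of the primes
`q ∣ Δ` with `p ∤ v_q(Δ)`, divides `M` (`resMod_iff_serreLevel_dvd`). In particular Serre's level is
the least level (`isLeast_serreLevel`), and `W[p]` is finite flat at `p` if and only if `p` does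
not divide it (`isFlatModule_iff`).
-/

set_option autoImplicit false

namespace Fermat.Agent.Cor.AtP

open WeierstrassCurve WeierstrassCurve.Affine WeierstrassCurve.Affine.Point Fermat.Agent.ECRed
open Fermat.Agent.FlatGS Fermat.Agent.Cor

variable {W : WeierstrassCurve ℤ} {p : ℕ}

/-- **The Serre level divides every level.** -/
theorem serreLevel_dvd_level (hΔ : W.Δ ≠ 0) (hW : W.IsSemistableModel) (hp : p.Prime)
    (hp2 : p ≠ 2) (hirr : W.ModRepIsIrreducible p) {M : ℕ} (hM : M ≠ 0)
    (h : W.IsResiduallyModularOfLevel p M) : serreLevel W p ∣ M := by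
  have : Fact p.Prime := ⟨hp⟩
  by_cases hpM : p ∣ M
  · exact (resMod_iff_of_self_dvd hΔ hW hp hp2 hirr hM hpM).1 h
  · refine serreLevel_dvd_of_resMod hΔ hW hp hp2 hirr (fun hd => ?_) hM h
    obtain ⟨h1, h2⟩ := (prime_dvd_serreLevel_iff hΔ hp).1 hd
    exact h2 (dvd_padicValInt_at_p hp2 hirr hM hpM h ⟨hp, h1, hW p hp h1, hΔ⟩)

/-- **The levels of `W[p]`**: for `W` semistable, `p` odd and `W[p]` irreducible, `W` is residually
modular at `p` of level `M` if and only if the Serre level divides `M`. -/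
theorem resMod_iff_serreLevel_dvd (hΔ : W.Δ ≠ 0) (hW : W.IsSemistableModel) (hp : p.Prime)
    (hp2 : p ≠ 2) (hirr : W.ModRepIsIrreducible p) {M : ℕ} (hM : M ≠ 0) :
    W.IsResiduallyModularOfLevel p M ↔ serreLevel W p ∣ M :=
  ⟨serreLevel_dvd_level hΔ hW hp hp2 hirr hM,
    fun h => resMod_raise hM h (resMod_serre hΔ hW hp hp2 hirr)⟩

/-- **Serre's level is the least level.** -/
theorem isLeast_serreLevel (hΔ : W.Δ ≠ 0) (hW : W.IsSemistableModel) (hp : p.Prime)
    (hp2 : p ≠ 2) (hirr : W.ModRepIsIrreducible p) :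
    IsLeast {M : ℕ | M ≠ 0 ∧ W.IsResiduallyModularOfLevel p M} (serreLevel W p) :=
  ⟨⟨(squarefree_serreLevel W p).ne_zero, resMod_serre hΔ hW hp hp2 hirr⟩, fun _ hM =>
    Nat.le_of_dvd (Nat.pos_of_ne_zero hM.1) (serreLevel_dvd_level hΔ hW hp hp2 hirr hM.1 hM.2)⟩

/-- **Finite flatness at `p`**: for `W` semistable, `p` odd and `W[p]` irreducible, `W[p]` is finite
flat at `p` if and only if `W` has good reduction at `p` or `p ∣ v_p(Δ)`. -/
theorem isFlatModule_iff (hΔ : W.Δ ≠ 0) (hW : W.IsSemistableModel) (hp : p.Prime)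
    (hp2 : p ≠ 2) (hirr : W.ModRepIsIrreducible p) :
    IsFlatModule p (fun (σ : GQ) (x : TP W p) => σ • x) ↔
      ((p : ℤ) ∣ W.Δ → p ∣ padicValInt p W.Δ) := by
  have : Fact p.Prime := ⟨hp⟩
  constructor
  · intro h h1
    exact dvd_padicValInt_of_isFlat ⟨hp, h1, hW p hp h1, hΔ⟩ hp2 h
  · intro h
    refine isFlatModule_of_level hΔ hp2 hirr (squarefree_serreLevel W p).ne_zero (fun hd => ?_)
      (resMod_serre hΔ hW hp hp2 hirr)
    obtain ⟨h1, h2⟩ := (prime_dvd_serreLevel_iff hΔ hp).1 hd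
    exact h2 (h h1)

end Fermat.Agent.Cor.AtP
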