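import Fermat.Agent.LatticeFlat.Alg
import Fermat.Agent.LocE.Kummer

/-!
# Extensions of `ℤ/p` by `μ_p` with a unit Kummer generator are finite flat

`M` a Galois module which is a plane over `ℤ/p` with basis `y, P`, `A` a place of `ℚ̄` above `p`,
`I` its inertia group. If `σ y = ω(σ) y` and `σ P = P + κ(σ) y` for `σ ∈ I`, `ω` the cyclotomic
character, and if there is a unit `ρ` of `A` with `σ ρ = ζ ^ κ(σ) ρ` for `σ ∈ I`, then `M` is finite
flat at `p` (`isFlatModule_of_unit`): the functions `Z ^ j` on the cosets of the line,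
`Z (i P + k y) = ζ ^ k ρ ^ i`, span over `A` an algebra which is stable under translations.
-/

set_option autoImplicit false

noncomputable section

namespace Fermat.Agent.Cor.AtP

open Fermat.Agent.FlatGS Fermat.Agent.LatticeFlat Fermat.Agent.LocE

variable {p : ℕ} [hp : Fact p.Prime] {A : ValuationSubring Om}

section

variable {M : Type} [AddCommGroup M] [Module (ZMod p) M]

/-- `Z (i P + k y) = ζ ^ k ρ ^ i`. -/
def zfun {ζ : Om} (hζ : IsPrimitiveRoot ζ p) (ρ : Om) (b : Module.Basis (Fin 2) (ZMod p) M)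
    (x : M) : Om := zchar hζ (b.repr x 0) * ρ ^ (b.repr x 1).val

/-- the powers of `Z` on the coset `a`. -/
def cosetFun {ζ : Om} (hζ : IsPrimitiveRoot ζ p) (ρ : Om) (b : Module.Basis (Fin 2) (ZMod p) M)
    (a : ZMod p) (n : ℕ) (x : M) : Om := if b.repr x 1 = a then zfun hζ ρ b x ^ n else 0

variable {ζ : Om} {hζ : IsPrimitiveRoot ζ p} {ρ : Om} {b : Module.Basis (Fin 2) (ZMod p) M}

lemma cosetFun_of_eq {a : ZMod p} {n : ℕ} {x : M} (h : b.repr x 1 = a) :
    cosetFun hζ ρ b a n x = zfun hζ ρ b x ^ n := if_pos h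

lemma cosetFun_of_ne {a : ZMod p} {n : ℕ} {x : M} (h : b.repr x 1 ≠ a) :
    cosetFun hζ ρ b a n x = 0 := if_neg h

lemma zchar_pow_p (k : ZMod p) : zchar hζ k ^ p = 1 := by
  rw [zchar_pow, CharP.cast_eq_zero, zero_mul, AddChar.map_zero_eq_one]

lemma zchar_ne_zero (k : ZMod p) : zchar hζ k ≠ 0 := by
  rw [zchar_apply]
  exact pow_ne_zero _ (hζ.ne_zero hp.out.ne_zero)

/-- all the powers of `Z` on a coset are in the span of the first `p` ones. -/
lemma cosetFun_mem (hρA : ρ ∈ A) (a : ZMod p) (n : ℕ) :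
    cosetFun hζ ρ b a n ∈ Submodule.span A
      (Set.range fun x : ZMod p × Fin p => cosetFun hζ ρ b x.1 (x.2 : ℕ)) := by
  let u : A := ⟨((ρ ^ p) ^ a.val) ^ (n / p), pow_mem (pow_mem (pow_mem hρA _) _) _⟩
  have h1 : cosetFun hζ ρ b a n = u • cosetFun hζ ρ b a (n % p) := by
    funext x
    change _ = ((ρ ^ p) ^ a.val) ^ (n / p) * cosetFun hζ ρ b a (n % p) x
    by_cases hx : b.repr x 1 = a
    · rw [cosetFun_of_eq hx, cosetFun_of_eq hx]
      have h2 : zfun hζ ρ b x ^ p = (ρ ^ p) ^ a.val := by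
        rw [zfun, mul_pow, zchar_pow_p, one_mul, hx, ← pow_mul, ← pow_mul, mul_comm]
      rw [← h2, ← pow_mul, ← pow_add, Nat.div_add_mod]
    · rw [cosetFun_of_ne hx, cosetFun_of_ne hx, mul_zero]
  rw [h1]
  exact Submodule.smul_mem _ _ (Submodule.subset_span
    ⟨(a, ⟨n % p, Nat.mod_lt _ hp.out.pos⟩), rfl⟩)

/-- **A unit Kummer generator gives a finite flat model.** -/
theorem isFlatModule_of_unit [Finite M] (hA : A.LiesOverPrime p) {act : GQ → M → M}
    (h : GAct act) (hadd : ∀ σ x y, act σ (x + y) = act σ x + act σ y)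
    (hζ : IsPrimitiveRoot ζ p) (b : Module.Basis (Fin 2) (ZMod p) M) {κ ω : GQ → ZMod p}
    (hω : ∀ σ ∈ A.inertiaSubgroupIn ℚ, σ ζ = ζ ^ (ω σ).val)
    (hb0 : ∀ σ ∈ A.inertiaSubgroupIn ℚ, act σ (b 0) = ω σ • b 0)
    (hb1 : ∀ σ ∈ A.inertiaSubgroupIn ℚ, act σ (b 1) = b 1 + κ σ • b 0)
    (hρ0 : ρ ≠ 0) (hρA : ρ ∈ A) (hρA' : ρ⁻¹ ∈ A)
    (hσρ : ∀ σ ∈ A.inertiaSubgroupIn ℚ, σ ρ = ζ ^ (κ σ).val * ρ) : IsFlatModule p act := by
  classical
  have hp0 : NeZero p := ⟨hp.out.ne_zero⟩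
  set F : Set (M → Om) := Set.range fun x : ZMod p × Fin p => cosetFun hζ ρ b x.1 (x.2 : ℕ)
    with hF
  have hmem : ∀ (a : ZMod p) (n : ℕ), cosetFun hζ ρ b a n ∈ Submodule.span A F :=
    fun a n => cosetFun_mem hρA a n
  have hζA : ∀ k : ZMod p, zchar hζ k ∈ A := by
    intro k
    have h1 : A.valuation (zchar hζ k) ^ p = 1 := by
      rw [← map_pow, zchar_pow_p, map_one]
    have h2 : A.valuation (zchar hζ k) = 1 := by
      exact (pow_eq_one_iff.mp h1).resolve_right hp.out.ne_zero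
    exact (A.valuation_le_one_iff _).mp h2.le
  -- the action of inertia in coordinates
  have hsmul : ∀ (σ : GQ) (k : ZMod p) (x : M), act σ (k • x) = k • act σ x := fun σ k x =>
    ZMod.map_smul (AddMonoidHom.mk' (act σ) (hadd σ)) k x
  have hdec : ∀ x : M, x = b.repr x 0 • b 0 + b.repr x 1 • b 1 := by
    intro x
    conv_lhs => rw [← b.sum_repr x, Fin.sum_univ_two]
  have hact : ∀ σ ∈ A.inertiaSubgroupIn ℚ, ∀ x : M,
      act σ x = (ω σ * b.repr x 0 + κ σ * b.repr x 1) • b 0 + b.repr x 1 • b 1 := by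
    intro σ hσ x
    conv_lhs => rw [hdec x]
    rw [hadd, hsmul, hsmul, hb0 σ hσ, hb1 σ hσ]
    module
  have hrepr : ∀ k i : ZMod p, b.repr (k • b 0 + i • b 1) 0 = k ∧
      b.repr (k • b 0 + i • b 1) 1 = i := by
    intro k i
    constructor <;> simp
  have hZσ : ∀ σ ∈ A.inertiaSubgroupIn ℚ, ∀ x : M,
      zfun hζ ρ b (act σ x) = σ (zfun hζ ρ b x) := by
    intro σ hσ x
    have h1 := hrepr (ω σ * b.repr x 0 + κ σ * b.repr x 1) (b.repr x 1)
    rw [← hact σ hσ x] at h1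
    rw [zfun, zfun, h1.1, h1.2, map_mul, map_zchar hζ (hω σ hσ), map_pow, hσρ σ hσ,
      ← zchar_apply hζ, mul_pow, zchar_pow, ZMod.natCast_zmod_val, AddChar.map_add_eq_mul,
      mul_comm (b.repr x 1)]
    ring
  have hiσ : ∀ σ ∈ A.inertiaSubgroupIn ℚ, ∀ x : M, b.repr (act σ x) 1 = b.repr x 1 := by
    intro σ hσ x
    have h1 := hrepr (ω σ * b.repr x 0 + κ σ * b.repr x 1) (b.repr x 1)
    rw [← hact σ hσ x] at h1
    exact h1.2
  refine isFlatModule_of_local_algebra hp.out hA h hadd F (Set.finite_range _) ?_ ?_ ?_ ?_ ?_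
  · -- equivariance
    rintro _ ⟨⟨a, j⟩, rfl⟩ σ hσ x
    change cosetFun hζ ρ b a j (act σ x) = σ (cosetFun hζ ρ b a j x)
    by_cases hx : b.repr x 1 = a
    · rw [cosetFun_of_eq hx, cosetFun_of_eq ((hiσ σ hσ x).trans hx), hZσ σ hσ, map_pow]
    · rw [cosetFun_of_ne hx, cosetFun_of_ne (fun h' => hx ((hiσ σ hσ x).symm.trans h')),
        map_zero]
  · -- the constants
    have h1 : (1 : M → Om) = ∑ a : ZMod p, cosetFun hζ ρ b a 0 := by
      funext x
      rw [Finset.sum_apply, Finset.sum_eq_single (b.repr x 1)]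
      · rw [cosetFun_of_eq rfl, pow_zero]
        rfl
      · intro a _ ha
        exact cosetFun_of_ne (Ne.symm ha)
      · intro h'
        exact absurd (Finset.mem_univ _) h'
    rw [h1]
    exact Submodule.sum_mem _ fun a _ => hmem a 0
  · -- products
    rintro _ ⟨⟨a, j⟩, rfl⟩ _ ⟨⟨a', j'⟩, rfl⟩
    change cosetFun hζ ρ b a j * cosetFun hζ ρ b a' j' ∈ _
    by_cases haa : a = a'
    · subst haa
      have h1 : cosetFun hζ ρ b a j * cosetFun hζ ρ b a j' =
          cosetFun hζ ρ b a ((j : ℕ) + j') := by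
        funext x
        rw [Pi.mul_apply]
        by_cases hx : b.repr x 1 = a
        · rw [cosetFun_of_eq hx, cosetFun_of_eq hx, cosetFun_of_eq hx, pow_add]
        · rw [cosetFun_of_ne hx, cosetFun_of_ne hx, cosetFun_of_ne hx, zero_mul]
      rw [h1]
      exact hmem a _
    · have h1 : cosetFun hζ ρ b a j * cosetFun hζ ρ b a' j' = 0 := by
        funext x
        rw [Pi.mul_apply, Pi.zero_apply]
        by_cases hx : b.repr x 1 = a
        · rw [cosetFun_of_ne (a := a') (fun h' => haa (hx.symm.trans h')), mul_zero]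
        · rw [cosetFun_of_ne hx, zero_mul]
      rw [h1]
      exact zero_mem _
  · -- separation
    intro x x' hxx
    have h1 : b.repr x 1 = b.repr x' 1 := by
      by_contra hne
      have h2 := hxx _ ⟨(b.repr x 1, ⟨0, hp.out.pos⟩), rfl⟩
      change cosetFun hζ ρ b (b.repr x 1) 0 x = cosetFun hζ ρ b (b.repr x 1) 0 x' at h2
      rw [cosetFun_of_eq rfl, cosetFun_of_ne (Ne.symm hne), pow_zero] at h2
      exact one_ne_zero h2
    have h2 : b.repr x 0 = b.repr x' 0 := by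
      have h3 := hxx _ ⟨(b.repr x 1, ⟨1, hp.out.one_lt⟩), rfl⟩
      change cosetFun hζ ρ b (b.repr x 1) 1 x = cosetFun hζ ρ b (b.repr x 1) 1 x' at h3
      rw [cosetFun_of_eq rfl, cosetFun_of_eq h1.symm, pow_one, pow_one, zfun, zfun, h1] at h3
      have h4 := mul_right_cancel₀ (pow_ne_zero _ hρ0) h3
      rw [zchar_apply, zchar_apply] at h4
      have h5 := hζ.pow_inj (ZMod.val_lt _) (ZMod.val_lt _) h4
      exact ZMod.val_injective p h5
    rw [hdec x, hdec x', h1, h2]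
  · -- translations
    rintro t _ ⟨⟨a, j⟩, rfl⟩
    change (fun x => cosetFun hζ ρ b a j (x + t)) ∈ _
    let u : Om := zchar hζ (b.repr t 0) * ρ ^ a.val * (ρ⁻¹) ^ (a - b.repr t 1).val
    have hu : u ∈ A := mul_mem (mul_mem (hζA _) (pow_mem hρA _)) (pow_mem hρA' _)
    have h1 : (fun x => cosetFun hζ ρ b a j (x + t)) =
        (⟨u ^ (j : ℕ), pow_mem hu _⟩ : A) • cosetFun hζ ρ b (a - b.repr t 1) j := by
      funext x
      change cosetFun hζ ρ b a j (x + t) = u ^ (j : ℕ) * cosetFun hζ ρ b (a - b.repr t 1) j x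
      have h2 : b.repr (x + t) 1 = b.repr x 1 + b.repr t 1 := by
        rw [map_add, Finsupp.add_apply]
      have h3 : b.repr (x + t) 0 = b.repr x 0 + b.repr t 0 := by
        rw [map_add, Finsupp.add_apply]
      by_cases hx : b.repr x 1 = a - b.repr t 1
      · have h4 : b.repr (x + t) 1 = a := by rw [h2, hx, sub_add_cancel]
        rw [cosetFun_of_eq hx, cosetFun_of_eq h4, ← mul_pow]
        congr 1
        rw [zfun, zfun, h4, h3, hx, AddChar.map_add_eq_mul]
        simp only [u]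
        rw [inv_pow]
        have h5 : ρ ^ (a - b.repr t 1).val ≠ 0 := pow_ne_zero _ hρ0
        field_simp
      · rw [cosetFun_of_ne hx, cosetFun_of_ne (fun h' => hx (by rw [← h', h2, add_sub_cancel_right])),
          mul_zero]
    rw [h1]
    exact Submodule.smul_mem _ _ (hmem _ _)

end

end Fermat.Agent.Cor.AtP

end
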