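import Fermat.Agent.Corollaries.AtP.Main
import Fermat.Agent.Corollaries.AtP.Val
import Fermat.Agent.Corollaries.AtP.Unit
import Fermat.Agent.EC.FlatTors

/-!
# Finite flatness of `W[p]` at a prime `p` of semistable reduction

`W` a Weierstrass equation over `ℤ`, `p` an odd prime.

* `isFlatModule_of_dvd` : if `W` has multiplicative reduction at `p` and `p ∣ v_p(Δ)`, then `W[p]`
  is finite flat at `p`;
* `isFlatModule_iff_dvd` : if `W` has multiplicative reduction at `p`, then `W[p]` is finite flat at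
  `p` if and only if `p ∣ v_p(Δ)`;
* `isFlatModule_iff_of_semistable` : if `W` has good or multiplicative reduction at `p`, then `W[p]`
  is finite flat at `p` if and only if `W` has good reduction at `p` or `p ∣ v_p(Δ)`.

There is no hypothesis of irreducibility or modularity.
-/

set_option autoImplicit false

noncomputable section

open WeierstrassCurve WeierstrassCurve.Affine WeierstrassCurve.Affine.Point
open FermatAgent.ECVal Fermat.Agent.ECRed Fermat.Agent.ECFrob Fermat.Agent.LocE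
open Fermat.Agent.FlatGS Fermat.Agent.LatticeFlat
open Fermat.Agent.GalRep hiding GQ
open scoped WeierstrassCurve.Affine

namespace Fermat.Agent.Cor.AtP

local notation "Qbar" => AlgebraicClosure ℚ

variable {W : WeierstrassCurve ℤ} {p : ℕ} [hp : Fact p.Prime] {A : ValuationSubring Qbar}

lemma xOf_eq_xc (P : (EQ W).Point) : Torsion.xOf P = xc P := by
  rcases P with _ | ⟨x, y, h⟩ <;> rfl

/-- The abscissae of the points of order `p` of the identity component have value `-2/(p-1)`. -/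
theorem val_xc_of_mem_E0 [DecidableEq (IsLocalRing.ResidueField A)] (hW : IsMultAt W p)
    (hp2 : p ≠ 2) (hA : A.LiesOverPrime p) {y : TP W p} (hy0 : y ≠ 0)
    (hyE : (y : (EQ W).Point) ∈ E0 (redEk W A) (isPlace_valuationSubring A)) :
    (valOf hp.out hA).Is (-2 / (p - 1)) (xc (y : (EQ W).Point)) := by
  classical
  obtain ⟨e, D, NR⟩ := hW.exists_nodeRoot hA
  have N0 := NR.nodeData hW.prime hA hW.ne
  have hp0 : (p : ℚ) ≠ 0 := by exact_mod_cast hp.out.ne_zero
  have hodd := hp.out.odd_of_ne_two hp2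
  set w := valOf hp.out hA with hw
  have hn : w.val D = (p : ℚ) * (w.val D / p) := by field_simp
  have N : NodeData w ((W.map (Int.castRingHom ℚ))⁄Qbar) e D ((p : ℚ) * (w.val D / p)) := by
    rw [← hn]
    exact N0
  have hE0 : ∀ x : TP W p, x ∈ line N hodd ↔
      (x : (EQ W).Point) ∈ E0 (redEk W A) (isPlace_valuationSubring A) := by
    intro x
    rw [mem_line, mem_E0_iff_pcomp hW.prime hA hW.ne NR]
    have h1 := jN_spec N hodd x
    have h2 : (0 : ℚ) < w.val D / p := node_n_pos N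
    rw [← hn] at h1
    constructor
    · intro h3
      rw [h3, Nat.cast_zero, zero_mul] at h1
      exact h1
    · intro h3
      have h4 : (jN N hodd x : ℚ) * (2 * (w.val D / p)) = 0 := h1.symm.trans h3
      have h5 : (2 * (w.val D / p) : ℚ) ≠ 0 := by positivity
      exact_mod_cast (mul_eq_zero.mp h4).resolve_right h5
  have hex : ∃ x, jN N hodd x ≠ 0 := by
    obtain ⟨P₀, hP₀, hP₀E⟩ := exists_torsion_notMem_E0 hW hp2 hA
    refine ⟨⟨P₀, Fermat.Agent.Tate.mem_torsionBy_nat.mpr hP₀⟩, fun h => hP₀E ?_⟩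
    exact (hE0 ⟨P₀, Fermat.Agent.Tate.mem_torsionBy_nat.mpr hP₀⟩).mp h
  have hb : BInt (W.map (Int.castRingHom ℚ)) A := by
    refine ⟨?_, ?_, ?_, ?_⟩
    · rw [show (((W.map (Int.castRingHom ℚ))⁄Qbar).b₂) = _ from EQ_b₂ W]
      exact val_intCast_le _ _
    · rw [show (((W.map (Int.castRingHom ℚ))⁄Qbar).b₄) = _ from EQ_b₄ W]
      exact val_intCast_le _ _
    · rw [show (((W.map (Int.castRingHom ℚ))⁄Qbar).b₆) = _ from EQ_b₆ W]
      exact val_intCast_le _ _
    · rw [show (((W.map (Int.castRingHom ℚ))⁄Qbar).b₈) = _ from EQ_b₈ W]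
      exact val_intCast_le _ _
  have hΔ : (W.map (Int.castRingHom ℚ)).Δ ≠ 0 := by
    rw [WeierstrassCurve.map_Δ, eq_intCast, Int.cast_ne_zero]
    exact hW.ne
  have he : e ∈ A := (A.valuation_le_one_iff _).mp NR.ve
  have := (val_line' hΔ hb he N hodd hex ((hE0 y).mpr hyE) hy0).1
  rwa [xOf_eq_xc] at this

/-- **The unit Kummer generator.** -/
theorem exists_unit_gen [DecidableEq (IsLocalRing.ResidueField A)] (hW : IsMultAt W p)
    (hp2 : p ≠ 2) (hd : p ∣ padicValInt p W.Δ) (hA : A.LiesOverPrime p) {ζ : Qbar}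
    (hζ : IsPrimitiveRoot ζ p) :
    ∃ (b : Module.Basis (Fin 2) (ZMod p) (TP W p)) (κ : (Qbar ≃ₐ[ℚ] Qbar) → ZMod p) (ρ : Qbar),
      (∀ σ ∈ A.inertiaSubgroupIn ℚ, σ • b 0 = cycMod p σ • b 0) ∧
      (∀ σ ∈ A.inertiaSubgroupIn ℚ, σ • b 1 = b 1 + κ σ • b 0) ∧
      (valOf hp.out hA).Is 0 ρ ∧ ∀ σ ∈ A.inertiaSubgroupIn ℚ, σ ρ = ζ ^ (κ σ).val * ρ := by
  classical
  obtain ⟨e, D, NR⟩ := hW.exists_nodeRoot hA
  have N := NR.nodeData hW.prime hA hW.ne
  have h2D := Cor.two_mul_valOf_nodeD hW hA NR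
  obtain ⟨c₀, hc₀, hec⟩ := Cor.exists_centre hW hA NR
  obtain ⟨y, P, κ, s, hy0, hPE, hyE, hspan, hω, hκ, -, -⟩ := exists_line hW hp2 hA
  have hp0 : (0 : ℚ) < p := by exact_mod_cast hp.out.pos
  have hp3 : (3 : ℚ) ≤ p := by
    have h3 : 3 ≤ p := by
      have := hp.out.two_le
      omega
    exact_mod_cast h3
  set w := valOf hp.out hA with hw
  set h := w.val D with hh
  have hh0 : 0 < h := N.hh
  -- the basis
  have hlin : LinearIndependent (ZMod p) ![y, P] := by
    rw [linearIndependent_fin2]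
    refine ⟨?_, ?_⟩
    · intro h'
      apply hPE
      change P = 0 at h'
      rw [h']
      exact (E0 (redEk W A) (isPlace_valuationSubring A)).zero_mem
    · intro c h'
      change c • P = y at h'
      by_cases hc : c = 0
      · rw [hc, zero_smul] at h'
        exact hy0 h'.symm
      · apply hPE
        have h1 : P = c⁻¹.val • y := by
          rw [← Nat.cast_smul_eq_nsmul (ZMod p), ZMod.natCast_zmod_val, ← h', smul_smul,
            inv_mul_cancel₀ hc, one_smul]
        have h2 : (P : (EQ W).Point) = c⁻¹.val • (y : (EQ W).Point) := congrArg Subtype.val h1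
        rw [h2]
        exact AddSubgroup.nsmul_mem _ hyE _
  let b : Module.Basis (Fin 2) (ZMod p) (TP W p) := Module.Basis.mk hlin (by
    rw [top_le_iff, ← hspan]
    congr 1
    ext x
    simp [Matrix.range_cons, or_comm])
  have hb0 : b 0 = y := by simp [b]
  have hb1 : b 1 = P := by simp [b]
  -- the component value of `P`
  have hPE' := hPE
  rw [mem_E0_iff_pcomp hW.prime hA hW.ne NR] at hPE'
  have hP0 : (P : (EQ W).Point) ≠ 0 := by
    intro h0
    rw [h0] at hPE'
    exact hPE' pcomp_zero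
  obtain ⟨hPn, eP⟩ := exists_eq_some hP0
  have hgt : w.Gt 0 (xc (P : (EQ W).Point) - e) := by
    by_contra hcon
    apply hPE'
    rw [eP, pcomp_some]
    exact QVal.comp_of_not_gt hcon
  obtain ⟨j, hj0, hjp, hX⟩ := torsion_val (hxy := hPn) N (hp.out.odd_of_ne_two hp2)
    (by rw [← eP]; exact p_nsmul_TP P) hgt
  have hjQ : (0 : ℚ) < j := by exact_mod_cast hj0
  have hjpQ : (2 : ℚ) * j < p := by exact_mod_cast hjp
  have hc1 : 0 < (2 * j / p : ℚ) * h := mul_pos (div_pos (by linarith) hp0) hh0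
  have hc2 : (2 * j / p : ℚ) * h < h := by
    have : (2 * j / p : ℚ) < 1 := by rw [div_lt_one hp0]; exact hjpQ
    nlinarith
  set c : ℚ := (2 * j / p : ℚ) * h with hc
  -- `c` is an integer
  obtain ⟨n, hn⟩ := hd
  set m : ℕ := j.toNat * n with hm
  have hcm : c = m := by
    have h1 : (j.toNat : ℚ) = j := by
      have : ((j.toNat : ℤ) : ℚ) = (j : ℚ) := by rw [Int.toNat_of_nonneg hj0.le]
      exact_mod_cast this
    rw [hm, Nat.cast_mul, h1, hc]
    rw [hn] at h2D
    push_cast at h2D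
    have h3 : h = p * n / 2 := by linarith
    rw [h3]
    field_simp
  -- the variation of the abscissa
  set s : ℚ := 1 / (p - 1) with hs
  have hs0 : 0 < s := by
    rw [hs]
    apply one_div_pos.mpr
    linarith
  have he : w.Ge 0 e := by
    rw [hw, valOf_ge_zero_iff, ← A.valuation_le_one_iff]
    exact NR.ve
  have h2 : w.Is 0 (2 : Qbar) := by
    exact_mod_cast valOf_natCast_of_not_dvd hW.prime hA (not_dvd_two hW.prime hp2)
  have hstep : ∀ Q : TP W p, (Q : (EQ W).Point) ∉ E0 (redEk W A) (isPlace_valuationSubring A) →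
      w.Is c (xc (Q : (EQ W).Point) - e) → ∀ k : ZMod p, k ≠ 0 →
      w.Is (c + s) (xc ((Q + k • y : TP W p) : (EQ W).Point) - xc (Q : (EQ W).Point)) := by
    intro Q hQE hQ k hk
    have hky0 : k • y ≠ 0 := smul_ne_zero hk hy0
    have hkyE : ((k • y : TP W p) : (EQ W).Point) ∈
        E0 (redEk W A) (isPlace_valuationSubring A) := by
      have h3 : k • y = k.val • y := by
        rw [← Nat.cast_smul_eq_nsmul (ZMod p), ZMod.natCast_zmod_val]
      have h4 : ((k • y : TP W p) : (EQ W).Point) = k.val • (y : (EQ W).Point) :=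
        congrArg Subtype.val h3
      rw [h4]
      exact AddSubgroup.nsmul_mem _ hyE _
    have hkv := val_xc_of_mem_E0 hW hp2 hA hky0 hkyE
    have hkP0 : ((k • y : TP W p) : (EQ W).Point) ≠ 0 := fun h0 => hky0 (Subtype.ext h0)
    obtain ⟨hkn, ek⟩ := exists_eq_some hkP0
    have hQ0 : (Q : (EQ W).Point) ≠ 0 := by
      intro h0
      apply hQE
      rw [h0]
      exact (E0 (redEk W A) (isPlace_valuationSubring A)).zero_mem
    obtain ⟨hQn, eQ⟩ := exists_eq_some hQ0
    have hQk0 : ((Q + k • y : TP W p) : (EQ W).Point) ≠ 0 := by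
      intro h0
      apply hQE
      have h1 : (Q : (EQ W).Point) = -((k • y : TP W p) : (EQ W).Point) :=
        eq_neg_of_add_eq_zero_left h0
      rw [h1]
      exact neg_mem hkyE
    obtain ⟨hQkn, eQk⟩ := exists_eq_some hQk0
    refine addX_sub_is N h2 hQn hkn hQkn ?_ hc1 hc2 hs0 hQ ?_
    · rw [← ek, ← eQ, ← eQk]
      rfl
    · have h3 : w.Is (-(2 * s)) (xc ((k • y : TP W p) : (EQ W).Point)) :=
        hkv.congr (by rw [hs]; ring)
      exact h3.sub_gt (he.gt (by linarith))
  -- the points `P + k y`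
  have hkE : ∀ k : ZMod p, ((P + k • y : TP W p) : (EQ W).Point) ∉
      E0 (redEk W A) (isPlace_valuationSubring A) := by
    intro k h0
    apply hPE
    have h3 : k • y = k.val • y := by
      rw [← Nat.cast_smul_eq_nsmul (ZMod p), ZMod.natCast_zmod_val]
    have h4 : ((k • y : TP W p) : (EQ W).Point) = k.val • (y : (EQ W).Point) :=
      congrArg Subtype.val h3
    have h5 : (P : (EQ W).Point) =
        ((P + k • y : TP W p) : (EQ W).Point) - k.val • (y : (EQ W).Point) := by
      rw [← h4]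
      change _ = (P : (EQ W).Point) + ((k • y : TP W p) : (EQ W).Point) - _
      rw [add_sub_cancel_right]
    rw [h5]
    exact sub_mem h0 (AddSubgroup.nsmul_mem _ hyE _)
  have hkv : ∀ k : ZMod p, w.Is c (xc ((P + k • y : TP W p) : (EQ W).Point) - e) := by
    intro k
    by_cases hk : k = 0
    · rw [hk, zero_smul, add_zero]
      exact hX
    · have h3 : xc ((P + k • y : TP W p) : (EQ W).Point) - e =
          (xc (P : (EQ W).Point) - e) +
            (xc ((P + k • y : TP W p) : (EQ W).Point) - xc (P : (EQ W).Point)) := by ring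
      rw [h3]
      exact hX.add_gt ((hstep P hPE hX k hk).ge.gt (by linarith))
  have hdiff : ∀ k k' : ZMod p, k ≠ k' →
      w.Is (c + s) (xc ((P + k • y : TP W p) : (EQ W).Point) -
        xc ((P + k' • y : TP W p) : (EQ W).Point)) := by
    intro k k' hkk
    have h3 := hstep (P + k' • y) (hkE k') (hkv k') (k - k') (sub_ne_zero.mpr hkk)
    have h4 : P + k' • y + (k - k') • y = P + k • y := by module
    rwa [h4] at h3
  -- the family
  have hpm : w.Is m ((p : Qbar) ^ m) := ((valOf_prime hp.out hA).pow m).congr (by simp)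
  have hpm0 : (p : Qbar) ^ m ≠ 0 := hpm.1
  let T : ZMod p → Qbar := fun k =>
    (xc ((P + k • y : TP W p) : (EQ W).Point) - c₀) / (p : Qbar) ^ m
  have hTd : ∀ k k', k ≠ k' → w.Is s (T k - T k') := by
    intro k k' hkk
    have h3 : T k - T k' = (xc ((P + k • y : TP W p) : (EQ W).Point) -
        xc ((P + k' • y : TP W p) : (EQ W).Point)) * ((p : Qbar) ^ m)⁻¹ := by
      simp only [T]
      field_simp
      ring
    rw [h3]
    exact ((hdiff k k' hkk).mul hpm.inv).congr (by rw [hcm]; ring)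
  have hinj : Function.Injective T := by
    intro k k' h'
    by_contra hne
    exact (hTd k k' hne).1 (sub_eq_zero.mpr h')
  have hecgt : w.Gt c (e - c₀) := by
    have h3 : e - c₀ = 2 * ((e - c₀) / 2) := by ring
    rw [h3]
    exact ((h2.ge.mul hec).mono (by linarith : h ≤ 0 + h)).gt hc2
  have hTA : ∀ k, T k ∈ A := by
    intro k
    rw [← valOf_ge_zero_iff hp.out hA]
    have h3 : T k = ((xc ((P + k • y : TP W p) : (EQ W).Point) - e) + (e - c₀)) *
        ((p : Qbar) ^ m)⁻¹ := by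
      simp only [T]
      field_simp
      ring
    rw [h3]
    exact ((((hkv k).add_gt hecgt).mul hpm.inv).congr (show c + -(m : ℚ) = 0 by
      rw [hcm]; ring)).ge
  have hσT : ∀ σ ∈ A.inertiaSubgroupIn ℚ, ∀ k, σ (T k) = T (κ σ + cycMod p σ * k) := by
    intro σ hσ k
    have h3 : σ • (P + k • y) = P + (κ σ + cycMod p σ * k) • y := by
      have h4 : σ • (k • y) = k • (σ • y) := (rho W p σ).map_smul k y
      rw [smul_add, hκ σ hσ, h4, hω σ hσ, smul_smul, add_smul, mul_comm k, add_assoc]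
    simp only [T]
    rw [← h3, map_div₀, map_sub, map_pow, map_natCast, hc₀ σ hσ, coe_smul_TP, xc_smul]
  obtain ⟨ρ, hρ, hρσ⟩ := exists_unit_kummer (hA := hA) hζ T hinj hTA κ (fun σ => cycMod p σ)
    (fun σ _ => cycMod_spec p σ hζ.pow_eq_one) hσT (r := s) (by
      have : (0 : ℚ) < 1 / p := by positivity
      linarith) (hTd 1 0 one_ne_zero)
  refine ⟨b, κ, ρ, ?_, ?_, hρ, hρσ⟩
  · rw [hb0]; exact hω
  · rw [hb0, hb1]; exact hκ

lemma gact_TP (hΔ : W.Δ ≠ 0) : GAct (fun (σ : GQ) (x : TP W p) => σ • x) := by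
  refine ⟨fun x => one_smul _ x, fun σ τ x => mul_smul σ τ x, fun x => ?_⟩
  obtain ⟨E, hE, h1⟩ := Fermat.Agent.Torsion.galoisRep_factors
    (W := W.map (Int.castRingHom ℚ)) (Fermat.Agent.Tate.map_Δ_ne_zero hΔ)
    (n := p) hp.out.ne_zero
  refine ⟨E, hE, fun σ hσ => ?_⟩
  have h2 := h1 σ (fun y hy => hσ ⟨y, hy⟩)
  have h3 := LinearMap.congr_fun h2 x
  rw [WeierstrassCurve.Affine.Point.galoisRepModuleEnd_apply, Module.End.one_apply] at h3
  exact h3

/-- **`p ∣ v_p(Δ)` implies that `W[p]` is finite flat at `p`**, for multiplicative reduction. -/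
theorem isFlatModule_of_dvd (hW : IsMultAt W p) (hp2 : p ≠ 2) (hd : p ∣ padicValInt p W.Δ) :
    IsFlatModule p (fun (σ : GQ) (x : TP W p) => σ • x) := by
  classical
  obtain ⟨A, hA⟩ := Frob.exists_liesOverPrime p hp.out
  obtain ⟨ζ, hζ⟩ := exists_primitiveRoot p
  have hfin := finite_rat hW.ne hp.out.ne_zero
  obtain ⟨b, κ, ρ, hb0, hb1, hρ, hσρ⟩ := exists_unit_gen hW hp2 hd hA hζ
  exact isFlatModule_of_unit (M := TP W p) hA (gact_TP hW.ne) (fun σ x y => smul_add σ x y) hζ b
    (ω := fun σ => cycMod p σ) (fun σ _ => cycMod_spec p σ hζ.pow_eq_one) hb0 hb1 hρ.1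
    ((valOf_ge_zero_iff hp.out hA).mp hρ.ge)
    ((valOf_ge_zero_iff hp.out hA).mp (hρ.inv.congr neg_zero).ge) hσρ

/-- **Multiplicative reduction at `p`**: `W[p]` is finite flat at `p` if and only if
`p ∣ v_p(Δ)`. -/
theorem isFlatModule_iff_dvd (hW : IsMultAt W p) (hp2 : p ≠ 2) :
    IsFlatModule p (fun (σ : GQ) (x : TP W p) => σ • x) ↔ p ∣ padicValInt p W.Δ :=
  ⟨dvd_padicValInt_of_isFlat hW hp2, isFlatModule_of_dvd hW hp2⟩

/-- **Good reduction at `p`**: `W[p]` is finite flat at `p`. -/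
theorem isFlatModule_of_good (hgood : ¬ (p : ℤ) ∣ W.Δ) :
    IsFlatModule p (fun (σ : GQ) (x : TP W p) => σ • x) :=
  ECFlat.isFlatModule_torsion hp.out (W := W) hgood 1 (a := (p : ℤ)) (by rw [pow_one])

/-- **Semistable reduction at `p`**, `p` odd: `W[p]` is finite flat at `p` if and only if `W` has
good reduction at `p` or `p ∣ v_p(Δ)`. -/
theorem isFlatModule_iff_of_semistable (hΔ : W.Δ ≠ 0) (hp2 : p ≠ 2)
    (hss : (p : ℤ) ∣ W.Δ → ¬ (p : ℤ) ∣ W.c₄) :
    IsFlatModule p (fun (σ : GQ) (x : TP W p) => σ • x) ↔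
      ((p : ℤ) ∣ W.Δ → p ∣ padicValInt p W.Δ) := by
  by_cases hgood : (p : ℤ) ∣ W.Δ
  · rw [isFlatModule_iff_dvd ⟨hp.out, hgood, hss hgood, hΔ⟩ hp2]
    exact ⟨fun h _ => h, fun h => h hgood⟩
  · exact ⟨fun _ h => absurd h hgood, fun _ => isFlatModule_of_good hgood⟩

end Fermat.Agent.Cor.AtP

end
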