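import Fermat.Agent.Corollaries.UnramIff
import Fermat.Agent.Corollaries.AtP.Level
import Fermat.Agent.Corollaries.AtP.Peu

/-!
# Semistable curves whose `p`-torsion is little ramified

`W` a semistable elliptic curve, `p` an odd prime. `W[p]` is called minimal at a prime `q` if it is
unramified at `q`, respectively finite flat at `p` if `q = p` (`IsMinimalAt`).

* `isPeuRamifieeAt_iff_isFlat` : `W` is peu ramifiée at `p` (`p ∣ v_p(Δ)`) if and only if `W[p]` is
  finite flat at `p`, for good or multiplicative reduction at `p`;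
* `dvd_serreLevel_iff_not_minimal` : the prime divisors of the Serre level are the primes at which
  `W[p]` is not minimal;
* `not_irreducible_of_minimal` : if `N` is one of the `15` levels of genus zero and `W[p]` is
  minimal at all primes which do not divide `N`, then `W[p]` is reducible;
* `reducible_of_unramified_outside` : the case of an `N` divisible by `p`.
-/

set_option autoImplicit false

noncomputable section

namespace Fermat.Agent.Cor.AtP

open WeierstrassCurve WeierstrassCurve.Affine WeierstrassCurve.Affine.Point Fermat.Agent.ECRed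
open Fermat.Agent.FlatGS Fermat.Agent.Cor

variable {W : WeierstrassCurve ℤ} {p q : ℕ}

/-- `W[p]` is unramified at `q`, if `q ≠ p`; finite flat at `p`, if `q = p`. -/
def IsMinimalAt (W : WeierstrassCurve ℤ) (p q : ℕ) : Prop :=
  (q ≠ p → GaloisRepUnramifiedAt (K := AlgebraicClosure ℚ) ℚ (W.map (Int.castRingHom ℚ)) p q) ∧
    (q = p → IsFlatModule p (fun (σ : GQ) (x : TP W p) => σ • x))

/-- **Peu ramifiée means finite flat**, `p` odd, semistable reduction at `p`. -/
theorem isPeuRamifieeAt_iff_isFlat (hΔ : W.Δ ≠ 0) (hp : p.Prime) (hp2 : p ≠ 2)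
    (hss : (p : ℤ) ∣ W.Δ → ¬ (p : ℤ) ∣ W.c₄) :
    (W.map (Int.castRingHom ℚ)).IsPeuRamifieeAt p p ↔
      IsFlatModule p (fun (σ : GQ) (x : TP W p) => σ • x) := by
  have : Fact p.Prime := ⟨hp⟩
  rw [isFlatModule_iff_of_semistable hΔ hp2 hss, IsPeuRamifieeAt, WeierstrassCurve.map_Δ,
    eq_intCast, padicValRat.of_int, Int.natCast_dvd_natCast]
  refine ⟨fun h _ => h, fun h => ?_⟩
  by_cases h1 : (p : ℤ) ∣ W.Δ
  · exact h h1
  · rw [padicValInt.eq_zero_of_not_dvd h1]
    exact dvd_zero p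

/-- **Minimality at `q`** is `p ∣ v_q(Δ)`, for semistable reduction at `q` (`q = p` allowed). -/
theorem isMinimalAt_iff_dvd (hΔ : W.Δ ≠ 0) (hp : p.Prime) (hp2 : p ≠ 2) (hq : q.Prime)
    (hss : (q : ℤ) ∣ W.Δ → ¬ (q : ℤ) ∣ W.c₄) :
    IsMinimalAt W p q ↔ p ∣ padicValInt q W.Δ := by
  have : Fact p.Prime := ⟨hp⟩
  have : Fact q.Prime := ⟨hq⟩
  rcases eq_or_ne q p with rfl | hqp
  · have h1 := isPeuRamifieeAt_iff_isFlat hΔ hp hp2 hss
    rw [IsPeuRamifieeAt, WeierstrassCurve.map_Δ, eq_intCast, padicValRat.of_int,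
      Int.natCast_dvd_natCast] at h1
    rw [h1]
    exact ⟨fun h => h.2 rfl, fun h => ⟨fun h2 => absurd rfl h2, fun _ => h⟩⟩
  · rw [← unramified_iff_dvd hΔ hq hss hp hp2 hqp]
    exact ⟨fun h => h.1 hqp, fun h => ⟨fun _ => h, fun h2 => absurd h2 hqp⟩⟩

/-- **The prime divisors of the Serre level** are the primes at which `W[p]` is not minimal. -/
theorem dvd_serreLevel_iff_not_minimal (hΔ : W.Δ ≠ 0) (hW : W.IsSemistableModel) (hp : p.Prime)
    (hp2 : p ≠ 2) (hq : q.Prime) : q ∣ serreLevel W p ↔ ¬ IsMinimalAt W p q := by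
  have : Fact q.Prime := ⟨hq⟩
  rw [isMinimalAt_iff_dvd hΔ hp hp2 hq (hW q hq), prime_dvd_serreLevel_iff hΔ hq]
  refine ⟨fun h => h.2, fun h => ⟨?_, h⟩⟩
  by_contra h1
  exact h (by rw [padicValInt.eq_zero_of_not_dvd h1]; exact dvd_zero p)

/-- The Serre level divides every `N` such that `W[p]` is minimal outside `N`. -/
theorem serreLevel_dvd_of_minimal (hΔ : W.Δ ≠ 0) (hW : W.IsSemistableModel) (hp : p.Prime)
    (hp2 : p ≠ 2) {N : ℕ} (hmin : ∀ q : ℕ, q.Prime → ¬ q ∣ N → IsMinimalAt W p q) :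
    serreLevel W p ∣ N := by
  rw [← Nat.prod_primeFactors_of_squarefree (squarefree_serreLevel W p)]
  refine Finset.prod_primes_dvd _ (fun q hq => (Nat.prime_of_mem_primeFactors hq).prime)
    fun q hq => ?_
  rw [Nat.mem_primeFactors] at hq
  by_contra hqN
  exact (dvd_serreLevel_iff_not_minimal hΔ hW hp hp2 hq.1).mp hq.2.1 (hmin q hq.1 hqN)

/-- **Little ramification implies reducibility**: if `N` is a level of genus zero and `W[p]` is
minimal at the primes not dividing `N`, then `W[p]` is reducible. -/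
theorem not_irreducible_of_minimal (hΔ : W.Δ ≠ 0) (hW : W.IsSemistableModel) (hp : p.Prime)
    (hp2 : p ≠ 2) {N : ℕ} (hN : N ∈ [1, 2, 3, 4, 5, 6, 7, 8, 9, 10, 12, 13, 16, 18, 25])
    (hmin : ∀ q : ℕ, q.Prime → ¬ q ∣ N → IsMinimalAt W p q) : ¬ W.ModRepIsIrreducible p :=
  fun hirr => serreLevel_notMem hΔ hW hp hp2 hirr
    (mem_of_dvd (serreLevel_dvd_of_minimal hΔ hW hp hp2 hmin) hN)

/-- The case `p ∣ N`: no condition at `p`. For example `W[3]` unramified outside `{2, 3}`, `W[5]`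
unramified outside `{2, 5}`, `W[7]` unramified outside `7`, `W[13]` unramified outside `13`. -/
theorem reducible_of_unramified_outside (hΔ : W.Δ ≠ 0) (hW : W.IsSemistableModel) (hp : p.Prime)
    (hp2 : p ≠ 2) {N : ℕ} (hN : N ∈ [1, 2, 3, 4, 5, 6, 7, 8, 9, 10, 12, 13, 16, 18, 25])
    (hpN : p ∣ N) (hun : ∀ q : ℕ, q.Prime → ¬ q ∣ N →
      GaloisRepUnramifiedAt (K := AlgebraicClosure ℚ) ℚ (W.map (Int.castRingHom ℚ)) p q) :
    ¬ W.ModRepIsIrreducible p :=
  not_irreducible_of_minimal hΔ hW hp hp2 hN fun q hq hqN =>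
    ⟨fun _ => hun q hq hqN, fun h => absurd hpN (h ▸ hqN)⟩

/-- **`W[p]` irreducible and finite flat at `p`** is ramified at a prime `q ≠ p` which does not
divide `N`, for every level `N` of genus zero. -/
theorem exists_ramified_of_isFlat (hΔ : W.Δ ≠ 0) (hW : W.IsSemistableModel) (hp : p.Prime)
    (hp2 : p ≠ 2) (hirr : W.ModRepIsIrreducible p)
    (hflat : IsFlatModule p (fun (σ : GQ) (x : TP W p) => σ • x)) {N : ℕ}
    (hN : N ∈ [1, 2, 3, 4, 5, 6, 7, 8, 9, 10, 12, 13, 16, 18, 25]) :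
    ∃ q : ℕ, q.Prime ∧ q ≠ p ∧ ¬ q ∣ N ∧
      ¬ GaloisRepUnramifiedAt (K := AlgebraicClosure ℚ) ℚ (W.map (Int.castRingHom ℚ)) p q := by
  by_contra hcon
  push Not at hcon
  exact not_irreducible_of_minimal hΔ hW hp hp2 hN
    (fun q hq hqN => ⟨fun hqp => hcon q hq hqp hqN, fun _ => hflat⟩) hirr

end Fermat.Agent.Cor.AtP

end
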