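import Fermat.Agent.Corollaries.Mazur.Main
import Fermat.Agent.Corollaries.AtP.Small

/-!
# Large primes: the `p`-torsion of a semistable curve is much ramified

`W` a semistable elliptic curve, `p = 11` or `p ≥ 17` a prime. By Mazur's theorem `W[p]` is
irreducible, so it is not minimal outside a level `N` of genus zero (`exists_not_isMinimalAt`). In
particular `W[p]` is not at the same time finite flat at `p` and unramified outside `{2, p}`
(`exists_ramified_ne_two`): for Frey curves this is Fermat's Last Theorem for the exponent `p`.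
-/

set_option autoImplicit false

noncomputable section

namespace Fermat.Agent.Cor.AtP

open WeierstrassCurve WeierstrassCurve.Affine WeierstrassCurve.Affine.Point Fermat.Agent.ECRed
open Fermat.Agent.FlatGS Fermat.Agent.Cor

variable {W : WeierstrassCurve ℤ} {p : ℕ}

/-- **`W[p]` is not minimal at some prime not dividing `N`**, `N` a level of genus zero, `p = 11`
or `p ≥ 17`; no hypothesis of irreducibility. -/
theorem exists_not_isMinimalAt (hΔ : W.Δ ≠ 0) (hW : W.IsSemistableModel) (hp : p.Prime)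
    (h : p = 11 ∨ 17 ≤ p) {N : ℕ}
    (hN : N ∈ [1, 2, 3, 4, 5, 6, 7, 8, 9, 10, 12, 13, 16, 18, 25]) :
    ∃ q : ℕ, q.Prime ∧ ¬ q ∣ N ∧ ¬ IsMinimalAt W p q := by
  by_contra hcon
  push Not at hcon
  exact not_irreducible_of_minimal hΔ hW hp (by omega) hN hcon
    (Cor.modRepIsIrreducible hp h hΔ hW)

/-- **If `W[p]` is finite flat at `p`, it is ramified at a prime `q ≠ p` not dividing `N`**, `N` a
level of genus zero, `p = 11` or `p ≥ 17`. -/
theorem exists_ramified (hΔ : W.Δ ≠ 0) (hW : W.IsSemistableModel) (hp : p.Prime)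
    (h : p = 11 ∨ 17 ≤ p) (hflat : IsFlatModule p (fun (σ : GQ) (x : TP W p) => σ • x)) {N : ℕ}
    (hN : N ∈ [1, 2, 3, 4, 5, 6, 7, 8, 9, 10, 12, 13, 16, 18, 25]) :
    ∃ q : ℕ, q.Prime ∧ q ≠ p ∧ ¬ q ∣ N ∧
      ¬ GaloisRepUnramifiedAt (K := AlgebraicClosure ℚ) ℚ (W.map (Int.castRingHom ℚ)) p q :=
  exists_ramified_of_isFlat hΔ hW hp (by omega) (Cor.modRepIsIrreducible hp h hΔ hW) hflat hN

/-- **There is no semistable elliptic curve with `W[p]` finite flat at `p` and unramified outside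
`{2, p}`**, `p = 11` or `p ≥ 17`. -/
theorem exists_ramified_ne_two (hΔ : W.Δ ≠ 0) (hW : W.IsSemistableModel) (hp : p.Prime)
    (h : p = 11 ∨ 17 ≤ p) (hflat : IsFlatModule p (fun (σ : GQ) (x : TP W p) => σ • x)) :
    ∃ q : ℕ, q.Prime ∧ q ≠ p ∧ q ≠ 2 ∧
      ¬ GaloisRepUnramifiedAt (K := AlgebraicClosure ℚ) ℚ (W.map (Int.castRingHom ℚ)) p q := by
  obtain ⟨q, hq, hqp, hq2, hr⟩ := exists_ramified hΔ hW hp h hflat (N := 2) (by decide)
  exact ⟨q, hq, hqp, fun h' => hq2 (h' ▸ dvd_rfl), hr⟩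

end Fermat.Agent.Cor.AtP

end
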