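import Fermat.Agent.LTF.Loc2Flat
import Fermat.Agent.Corollaries.AtP.Peu

/-!
# Finite flatness of `W[2]` at a prime of semistable reduction

`W` a Weierstrass equation over `ℤ` with multiplicative reduction at `2`. The point `y` of order two
in the kernel of the reduction is fixed by inertia, the other two, which reduce to the node, are
exchanged by the elements of inertia which move `√Δ` (`exists_two_torsion`). Hence `W[2]` is finite
flat at `2` if and only if `v₂(Δ)` is even, and the theorem of `AtP/Peu` holds for all primes `p`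
(`isFlatModule_iff`, `isFlatModule_iff_semistable`).
-/

set_option autoImplicit false

noncomputable section

open WeierstrassCurve WeierstrassCurve.Affine WeierstrassCurve.Affine.Point
open FermatAgent.ECVal Fermat.Agent.ECRed Fermat.Agent.ECFrob Fermat.Agent.LocE
open Fermat.Agent.FlatGS Fermat.Agent.LatticeFlat
open Fermat.Agent.GalRep hiding GQ
open scoped WeierstrassCurve.Affine

namespace Fermat.Agent.Cor.AtP

local notation "Qbar" => AlgebraicClosure ℚ

variable {W : WeierstrassCurve ℤ} {A : ValuationSubring Qbar}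

/-- a point of order two with a given abscissa. -/
theorem exists_two_torsion_over (hΔ : W.Δ ≠ 0) {w : QVal Qbar} {e D : Qbar} {h : ℚ}
    (N : NodeData w (EQ W) e D h) {x : Qbar}
    (hx : (x - e) * (4 * (x - e) ^ 2 + ((EQ W).b₂ + 12 * e) * (x - e) + 4 * D) = 0) :
    ∃ P : TP W 2, P ≠ 0 ∧ xc (P : (EQ W).Point) = x := by
  have hΔ' : (EQ W).Δ ≠ 0 := by
    rw [EQ_Δ]
    exact_mod_cast hΔ
  obtain ⟨y, hy⟩ := Torsion.exists_point_over hΔ' x
  have h1 := psi_sq_eq N hy.1
  have h2 : (2 * y + (EQ W).a₁ * x + (EQ W).a₃) ^ 2 = 0 := by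
    rw [h1]
    linear_combination hx
  have h3 : 2 * y + (EQ W).a₁ * x + (EQ W).a₃ = 0 := (pow_eq_zero_iff two_ne_zero).mp h2
  have hT : 2 • (Point.some x y hy : (EQ W).Point) = 0 := by
    rw [two_nsmul]
    exact Point.add_of_Y_eq rfl (by rw [Affine.negY]; linear_combination h3)
  exact ⟨⟨Point.some x y hy, Fermat.Agent.Tate.mem_torsionBy_nat.mpr hT⟩,
    fun h => Point.some_ne_zero hy (congrArg Subtype.val h), rfl⟩

/-- the abscissa of a point of order two. -/
theorem root_of_two_torsion {w : QVal Qbar} {e D : Qbar} {h : ℚ}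
    (N : NodeData w (EQ W) e D h) {P : TP W 2} (hP : P ≠ 0) :
    (xc (P : (EQ W).Point) - e) * (4 * (xc (P : (EQ W).Point) - e) ^ 2 +
      ((EQ W).b₂ + 12 * e) * (xc (P : (EQ W).Point) - e) + 4 * D) = 0 := by
  have hP0 : (P : (EQ W).Point) ≠ 0 := fun h => hP (Subtype.ext h)
  have h2 : (P : (EQ W).Point) + (P : (EQ W).Point) = 0 := by
    rw [← two_nsmul]
    exact p_nsmul_TP P
  obtain ⟨hPn, eP⟩ := exists_eq_some hP0
  have h3 : (P : (EQ W).Point) = -(P : (EQ W).Point) := eq_neg_of_add_eq_zero_left h2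
  have h4 : yc (P : (EQ W).Point) = (EQ W).negY (xc (P : (EQ W).Point)) (yc (P : (EQ W).Point)) := by
    conv_lhs => rw [h3]
    exact yc_neg hP0
  have h5 : 2 * yc (P : (EQ W).Point) + (EQ W).a₁ * xc (P : (EQ W).Point) + (EQ W).a₃ = 0 := by
    rw [Affine.negY] at h4
    linear_combination h4
  have h6 := psi_sq_eq N hPn.1
  rw [h5] at h6
  linear_combination -h6

/-- points of order two are determined by the abscissa. -/
theorem eq_of_xc_eq_two {P Q : TP W 2} (hP : P ≠ 0) (hQ : Q ≠ 0)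
    (h : xc (P : (EQ W).Point) = xc (Q : (EQ W).Point)) : P = Q := by
  have hP0 : (P : (EQ W).Point) ≠ 0 := fun h => hP (Subtype.ext h)
  have hQ0 : (Q : (EQ W).Point) ≠ 0 := fun h => hQ (Subtype.ext h)
  apply Subtype.ext
  rcases eq_or_eq_neg_of_xc_eq hP0 hQ0 h with h1 | h1
  · exact h1
  · have h2 : (Q : (EQ W).Point) + (Q : (EQ W).Point) = 0 := by
      rw [← two_nsmul]
      exact p_nsmul_TP Q
    rw [h1]
    exact (eq_neg_of_add_eq_zero_left h2).symm

/-- **The points of order two** at a place of multiplicative reduction above two. -/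
theorem exists_two_torsion (hW : IsMultAt W 2) (hA : A.LiesOverPrime 2) :
    ∃ (b : Module.Basis (Fin 2) (ZMod 2) (TP W 2)) (δ : Qbar),
      δ ^ 2 = ((W.Δ : ℤ) : Qbar) ∧
      (∀ σ ∈ A.inertiaSubgroupIn ℚ, σ • b 0 = b 0) ∧
      ∀ σ ∈ A.inertiaSubgroupIn ℚ,
        (σ δ = δ ∧ σ • b 1 = b 1) ∨ (σ δ = -δ ∧ σ • b 1 = b 1 + b 0) := by
  classical
  obtain ⟨e, D, NR⟩ := hW.exists_nodeRoot hA
  have N := NR.nodeData hW.prime hA hW.ne
  set w := valOf hW.prime hA with hw
  set h := w.val D with hh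
  have hh0 : 0 < h := N.hh
  set B := (EQ W).b₂ + 12 * e with hB
  have hBis : w.Is 0 B := N.hB
  have h2is : w.Is 1 (2 : Qbar) := by exact_mod_cast valOf_prime hW.prime hA
  have h4is : w.Is 2 (4 : Qbar) := by
    have := h2is.sq
    norm_num at this
    exact this
  have h16 : w.Ge 0 (16 : Qbar) := by exact_mod_cast QVal.ge_natCast (w := w) 16
  -- the two other abscissae
  obtain ⟨a, b', hab, habD, ha, hb'⟩ : ∃ a b' : Qbar, a + b' = B ∧ a * b' = 16 * D ∧
      w.Is 0 a ∧ w.Ge (4 + h) b' := by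
    obtain ⟨t, ht⟩ := IsAlgClosed.exists_pow_nat_eq (B ^ 2 - 64 * D) (n := 2) (by norm_num)
    have h1 : (B + t) / 2 + (B - t) / 2 = B := by ring
    have h2 : (B + t) / 2 * ((B - t) / 2) = 16 * D := by linear_combination (-1 / 4) * ht
    have h16is : w.Is 4 (16 : Qbar) := by
      have := h4is.sq
      norm_num at this
      exact this
    rcases QVal.roots_split_ge h1 h2 hBis (h16is.mul N.hD).ge (by linarith) with ⟨h3, h4⟩ | ⟨h3, h4⟩
    · exact ⟨_, _, h1, h2, h3, h4.mono (by linarith)⟩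
    · exact ⟨_, _, (by rw [add_comm]; exact h1), (by rw [mul_comm]; exact h2), h4,
        h3.mono (by linarith)⟩
  set r₁ : Qbar := -a / 4 with hr₁
  set r₂ : Qbar := -b' / 4 with hr₂
  have hsum : 4 * (r₁ + r₂) = -B := by rw [hr₁, hr₂, ← hab]; ring
  have hprod : r₁ * r₂ = D := by
    rw [hr₁, hr₂]
    linear_combination habD / 16
  have hquad : ∀ X : Qbar, 4 * X ^ 2 + B * X + 4 * D = 4 * ((X - r₁) * (X - r₂)) := by
    intro X
    linear_combination (-4) * hprod + X * hsum
  have hr₁is : w.Is (-2) r₁ := by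
    rw [hr₁, neg_div]
    have := (ha.mul h4is.inv).neg
    rw [← div_eq_mul_inv] at this
    exact this.congr (by ring)
  have hD0 : D ≠ 0 := N.hD.1
  have hr₂0 : r₂ ≠ 0 := by
    intro h0
    rw [h0, mul_zero] at hprod
    exact hD0 hprod.symm
  -- the points
  obtain ⟨Y, hY0, hYx⟩ := exists_two_torsion_over (W := W) hW.ne N (x := e + r₁) (by
    rw [add_sub_cancel_left, ← hB, hquad]
    ring)
  obtain ⟨P, hP0, hPx⟩ := exists_two_torsion_over (W := W) hW.ne N (x := e) (by ring)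
  have hYP : P ≠ Y := by
    intro h1
    rw [h1, hYx] at hPx
    exact hr₁is.1 (by linear_combination hPx)
  have hcoe2 : ∀ Q : TP W 2, Q + Q = 0 := fun Q => by
    apply Subtype.ext
    have := p_nsmul_TP Q
    rw [two_nsmul] at this
    exact this
  have hPY0 : P + Y ≠ 0 := fun h1 => hYP (by
    rw [eq_neg_of_add_eq_zero_left h1, neg_eq_of_add_eq_zero_left (hcoe2 Y)])
  have hPYx : xc ((P + Y : TP W 2) : (EQ W).Point) = e + r₂ := by
    have h1 := root_of_two_torsion N hPY0
    rw [← hB, hquad] at h1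
    set X := xc ((P + Y : TP W 2) : (EQ W).Point) - e with hX
    rcases mul_eq_zero.mp h1 with h2 | h2
    · exfalso
      have h3 : P + Y = P := eq_of_xc_eq_two hPY0 hP0 (by rw [hPx]; exact sub_eq_zero.mp h2)
      exact hY0 (by simpa using h3)
    · rcases mul_eq_zero.mp ((mul_eq_zero.mp h2).resolve_left (by norm_num)) with h3 | h3
      · exfalso
        have h4 : P + Y = Y := eq_of_xc_eq_two hPY0 hY0 (by
          rw [hYx]
          linear_combination h3)
        exact hP0 (by simpa using h4)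
      · linear_combination h3
  -- the basis
  have hlin : LinearIndependent (ZMod 2) ![Y, P] := by
    rw [linearIndependent_fin2]
    refine ⟨hP0, fun c hc => ?_⟩
    change c • P = Y at hc
    have h1 : ∀ c : ZMod 2, c = 0 ∨ c = 1 := by decide
    rcases h1 c with rfl | rfl
    · rw [zero_smul] at hc
      exact hY0 hc.symm
    · rw [one_smul] at hc
      exact hYP hc
  have hfin := finite_rat hW.ne (two_ne_zero)
  have : Finite (TP W 2) := hfin
  have hmf : Module.Finite (ZMod 2) (TP W 2) := Module.Finite.of_finite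
  have hrank : Module.finrank (ZMod 2) (TP W 2) = 2 := finrank_rat hW.ne (p := 2)
  let b : Module.Basis (Fin 2) (ZMod 2) (TP W 2) :=
    basisOfLinearIndependentOfCardEqFinrank hlin (by rw [hrank]; rfl)
  have hb0 : b 0 = Y := by simp [b]
  have hb1 : b 1 = P := by simp [b]
  have hall : ∀ Q : TP W 2, Q = 0 ∨ Q = Y ∨ Q = P ∨ Q = P + Y := by
    intro Q
    have h1 : Q = b.repr Q 0 • Y + b.repr Q 1 • P := by
      conv_lhs => rw [← b.sum_repr Q, Fin.sum_univ_two, hb0, hb1]
    have h2 : ∀ c : ZMod 2, c = 0 ∨ c = 1 := by decide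
    rcases h2 (b.repr Q 0) with h3 | h3 <;> rcases h2 (b.repr Q 1) with h4 | h4 <;>
      rw [h3, h4] at h1 <;> simp only [zero_smul, one_smul, zero_add, add_zero] at h1
    · exact Or.inl h1
    · exact Or.inr (Or.inr (Or.inl h1))
    · exact Or.inr (Or.inl h1)
    · exact Or.inr (Or.inr (Or.inr (by rw [h1, add_comm])))
  -- inertia
  have heA : e ∈ A := (A.valuation_le_one_iff _).mp NR.ve
  have heGe : w.Ge 0 e := (valOf_ge_zero_iff hW.prime hA).mpr heA
  have hYA : e + r₁ ∉ A := by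
    intro h1
    have h2 := (valOf_ge_zero_iff hW.prime hA).mpr h1
    have h3 : w.Is (-2) (e + r₁) := (heGe.gt (by norm_num)).add_is hr₁is
    have := h3.le_of_ge h2
    linarith
  have hPYA : e + r₂ ∈ A := by
    rw [← valOf_ge_zero_iff hW.prime hA]
    refine heGe.add ?_
    rw [hr₂, neg_div, div_eq_mul_inv]
    exact ((hb'.mul h4is.inv.ge).mono (by linarith)).neg
  have hσA : ∀ σ ∈ A.inertiaSubgroupIn ℚ, ∀ x : Qbar, σ x ∈ A ↔ x ∈ A := fun σ hσ x =>
    mem_of_mem_decomposition (mem_decomposition_of_mem_inertia hσ)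
  have hxσ : ∀ (σ : Qbar ≃ₐ[ℚ] Qbar) (Q : TP W 2), xc ((σ • Q : TP W 2) : (EQ W).Point) =
      σ (xc (Q : (EQ W).Point)) := fun σ Q => by rw [coe_smul_TP, xc_smul]
  have hσ0 : ∀ (σ : Qbar ≃ₐ[ℚ] Qbar) (Q : TP W 2), Q ≠ 0 → σ • Q ≠ 0 := fun σ Q hQ h1 =>
    hQ ((smul_eq_zero_iff_eq σ).mp h1)
  have hσY : ∀ σ ∈ A.inertiaSubgroupIn ℚ, σ • Y = Y := by
    intro σ hσ
    have h1 : xc ((σ • Y : TP W 2) : (EQ W).Point) ∉ A := by
      rw [hxσ, hYx, hσA σ hσ]
      exact hYA
    rcases hall (σ • Y) with h2 | h2 | h2 | h2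
    · exact absurd h2 (hσ0 σ Y hY0)
    · exact h2
    · rw [h2, hPx] at h1
      exact absurd heA h1
    · rw [h2, hPYx] at h1
      exact absurd hPYA h1
  have hσP : ∀ σ ∈ A.inertiaSubgroupIn ℚ, σ • P = P ∨ σ • P = P + Y := by
    intro σ hσ
    rcases hall (σ • P) with h2 | h2 | h2 | h2
    · exact absurd h2 (hσ0 σ P hP0)
    · exfalso
      have h1 : σ (xc (P : (EQ W).Point)) ∈ A := by
        rw [hPx, hσA σ hσ]
        exact heA
      rw [← hxσ, h2, hYx] at h1
      exact hYA h1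
    · exact Or.inl h2
    · exact Or.inr h2
  -- the square root of the discriminant
  refine ⟨b, 4 * (r₁ * r₂ * (r₁ - r₂)), ?_, ?_, ?_⟩
  · rw [← EQ_Δ W, NR.hΔ, ← hB]
    have h1 : (4 * (r₁ * r₂ * (r₁ - r₂))) ^ 2 =
        (r₁ * r₂) ^ 2 * ((4 * (r₁ + r₂)) ^ 2 - 64 * (r₁ * r₂)) := by ring
    rw [h1, hsum, hprod]
    ring
  · intro σ hσ
    rw [hb0]
    exact hσY σ hσ
  · intro σ hσ
    rw [hb0, hb1]
    have hx1 : σ (e + r₁) = e + r₁ := by
      rw [← hYx, ← hxσ, hσY σ hσ]
    rcases hσP σ hσ with h1 | h1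
    · left
      refine ⟨?_, h1⟩
      have h2 : σ e = e := by rw [← hPx, ← hxσ, h1]
      have h3 : σ (e + r₂) = e + r₂ := by
        rw [← hPYx, ← hxσ, smul_add, h1, hσY σ hσ]
      have h4 : σ r₁ = r₁ := by
        rw [map_add, h2] at hx1
        exact add_left_cancel hx1
      have h5 : σ r₂ = r₂ := by
        rw [map_add, h2] at h3
        exact add_left_cancel h3
      rw [map_mul, map_mul, map_mul, map_sub, h4, h5, map_ofNat]
    · right
      refine ⟨?_, h1⟩
      have h2 : σ e = e + r₂ := by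
        conv_lhs => rw [← hPx]
        rw [← hxσ, h1, hPYx]
      have h3 : σ (e + r₂) = e := by
        conv_lhs => rw [← hPYx]
        rw [← hxσ, smul_add, h1, hσY σ hσ, add_assoc, hcoe2 Y, add_zero, hPx]
      have h4 : σ r₁ = r₁ - r₂ := by
        rw [map_add, h2] at hx1
        linear_combination hx1
      have h5 : σ r₂ = -r₂ := by
        rw [map_add, h2] at h3
        linear_combination h3
      rw [map_mul, map_mul, map_mul, map_sub, h4, h5, map_ofNat]
      ring

/-- **Multiplicative reduction at `2`**: `W[2]` is finite flat at `2` if and only if `v₂(Δ)` is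
even. -/
theorem isFlatModule_two_iff (hW : IsMultAt W 2) :
    IsFlatModule 2 (fun (σ : GQ) (x : TP W 2) => σ • x) ↔ 2 ∣ padicValInt 2 W.Δ := by
  classical
  obtain ⟨A, hA⟩ := Frob.exists_liesOverPrime 2 Nat.prime_two
  obtain ⟨b, δ, hδ, hb0, hb1⟩ := exists_two_torsion hW hA
  have hfin := finite_rat hW.ne (two_ne_zero)
  have : Finite (TP W 2) := hfin
  have hΔis := Cor.is_intCast hW.prime hA hW.ne
  have hδ0 : δ ≠ 0 := by
    rintro rfl
    rw [zero_pow two_ne_zero] at hδ
    exact hΔis.1 hδ.symm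
  have hneg : δ ≠ -δ := fun h => hδ0 (by
    have h2 : 2 * δ = 0 := by linear_combination h
    exact (mul_eq_zero.mp h2).resolve_left two_ne_zero)
  constructor
  · intro hflat
    by_contra hcon
    refine Fermat.Agent.LTF.Loc2.not_isFlatModule_two (M := TP W 2)
      (act := fun (σ : GQ) (x : TP W 2) => σ • x) (fun m => Subtype.ext (p_nsmul_TP m)) hA
      (δ := δ) (D := (W.Δ : ℚ)) (by rw [hδ, map_intCast]) (n := (padicValInt 2 W.Δ : ℤ))
      (by rw [← Int.not_even_iff_odd, even_iff_two_dvd]; exact_mod_cast hcon) ?_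
      (x := b 1) (y := b 0) (b.ne_zero 0) hb0 ?_ ?_ hflat
    · rw [map_intCast]
      exact_mod_cast hΔis
    · intro σ hσ h1
      rcases hb1 σ hσ with h2 | h2
      · exact h2.2
      · exact absurd (h1.symm.trans h2.1) hneg
    · intro σ hσ h1
      rcases hb1 σ hσ with h2 | h2
      · exact absurd h2.1 h1
      · exact h2.2
  · rintro ⟨n, hn⟩
    have h2is : (valOf hW.prime hA).Is 1 (2 : Qbar) := by
      exact_mod_cast valOf_prime hW.prime hA
    have h2n : (valOf hW.prime hA).Is n ((2 : Qbar) ^ n) := (h2is.pow n).congr (by ring)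
    have h2n0 : (2 : Qbar) ^ n ≠ 0 := h2n.1
    set ρ : Qbar := δ * ((2 : Qbar) ^ n)⁻¹ with hρ
    have hδis : (valOf hW.prime hA).Is n δ := by
      apply is_of_sq
      rw [hδ]
      exact hΔis.congr (by rw [hn]; push_cast; ring)
    have hρis : (valOf hW.prime hA).Is 0 ρ := (hδis.mul h2n.inv).congr (by ring)
    have hζ : IsPrimitiveRoot (-1 : Qbar) 2 := IsPrimitiveRoot.neg_one 0 (by norm_num)
    -- the classes
    have hex : ∀ σ : GQ, ∃ k : ZMod 2, σ ∈ A.inertiaSubgroupIn ℚ →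
        σ • b 1 = b 1 + k • b 0 ∧ σ ρ = (-1) ^ k.val * ρ := by
      intro σ
      by_cases hσ : σ ∈ A.inertiaSubgroupIn ℚ
      · have h2 : σ ((2 : Qbar) ^ n)⁻¹ = ((2 : Qbar) ^ n)⁻¹ := by
          rw [map_inv₀, map_pow, map_ofNat]
        rcases hb1 σ hσ with ⟨h3, h4⟩ | ⟨h3, h4⟩
        · refine ⟨0, fun _ => ⟨by rw [h4, zero_smul, add_zero], ?_⟩⟩
          rw [hρ, map_mul, h3, h2, ZMod.val_zero, pow_zero, one_mul]
        · refine ⟨1, fun _ => ⟨by rw [h4, one_smul], ?_⟩⟩
          have h5 : (1 : ZMod 2).val = 1 := rfl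
          rw [hρ, map_mul, h3, h2, h5, pow_one]
          ring
      · exact ⟨0, fun h => absurd h hσ⟩
    choose κ hκ using hex
    refine isFlatModule_of_unit (p := 2) (M := TP W 2) hA (gact_TP hW.ne)
      (fun σ x y => smul_add σ x y) hζ b (κ := κ) (ω := fun _ => 1) ?_ ?_
      (fun σ hσ => (hκ σ hσ).1) hρis.1 ((valOf_ge_zero_iff hW.prime hA).mp hρis.ge)
      ((valOf_ge_zero_iff hW.prime hA).mp (hρis.inv.congr neg_zero).ge)
      (fun σ hσ => (hκ σ hσ).2)
    · intro σ _
      have h5 : (1 : ZMod 2).val = 1 := rfl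
      rw [map_neg, map_one, h5, pow_one]
    · intro σ hσ
      rw [one_smul]
      exact hb0 σ hσ

/-- **Multiplicative reduction at `p`** (`p = 2` included): `W[p]` is finite flat at `p` if and
only if `p ∣ v_p(Δ)`. -/
theorem isFlatModule_iff_dvd_all {p : ℕ} (hW : IsMultAt W p) :
    IsFlatModule p (fun (σ : GQ) (x : TP W p) => σ • x) ↔ p ∣ padicValInt p W.Δ := by
  have : Fact p.Prime := ⟨hW.prime⟩
  rcases eq_or_ne p 2 with rfl | hp2
  · exact isFlatModule_two_iff hW
  · exact isFlatModule_iff_dvd hW hp2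

/-- **Semistable reduction at `p`** (`p = 2` included): `W[p]` is finite flat at `p` if and only if
`W` has good reduction at `p` or `p ∣ v_p(Δ)`. -/
theorem isFlatModule_iff_semistable {p : ℕ} (hp : p.Prime) (hΔ : W.Δ ≠ 0)
    (hss : (p : ℤ) ∣ W.Δ → ¬ (p : ℤ) ∣ W.c₄) :
    IsFlatModule p (fun (σ : GQ) (x : TP W p) => σ • x) ↔ p ∣ padicValInt p W.Δ := by
  have : Fact p.Prime := ⟨hp⟩
  by_cases hgood : (p : ℤ) ∣ W.Δ
  · exact isFlatModule_iff_dvd_all ⟨hp, hgood, hss hgood, hΔ⟩
  · refine ⟨fun _ => ?_, fun _ => isFlatModule_of_good hgood⟩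
    rw [padicValInt.eq_zero_of_not_dvd hgood]
    exact dvd_zero p

end Fermat.Agent.Cor.AtP

end
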